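import Mathlib
import Fermat.Prelude.Def_GaloisRep_Flat

set_option autoImplicit false
set_option linter.unusedSectionVars false

namespace Fermat.Agent.S28

open Polynomial

section Basic

variable (l : ℕ) [Fact l.Prime]

/-- The ring `ℤ_(l)` as a subring of `ℚ`. -/
abbrev fz_Zl : Type := ↥(GaloisRep.ratLocalizedAt l)

theorem fz_mem_iff (q : ℚ) : q ∈ GaloisRep.ratLocalizedAt l ↔ q.den.Coprime l := Iff.rfl

/-- An integer divided by a natural number coprime to `l` lies in `ℤ_(l)`. -/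
theorem fz_divInt_mem (a : ℤ) {b : ℕ} (hb : b.Coprime l) :
    ((a : ℚ) / (b : ℚ)) ∈ GaloisRep.ratLocalizedAt l := by
  rw [fz_mem_iff]
  have hb0 : b ≠ 0 := by
    rintro rfl
    have := (Fact.out : l.Prime).one_lt
    simp at hb
    omega
  have hdvd : ((a : ℚ) / (b : ℚ)).den ∣ b := by
    have h := Rat.den_dvd a b
    have h2 : ((a : ℚ) / (b : ℚ)) = Rat.divInt a b := by
      rw [Rat.divInt_eq_div]; norm_cast
    rw [h2]
    exact_mod_cast h
  exact Nat.Coprime.coprime_dvd_left hdvd hb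

theorem fz_coe_natCast (n : ℕ) : (((n : fz_Zl l) : fz_Zl l) : ℚ) = n := by
  simp

/-- Divisibility by `l` in `ℤ_(l)` is divisibility of the numerator. -/
theorem fz_dvd_iff (x : fz_Zl l) : ((l : ℕ) : fz_Zl l) ∣ x ↔ (l : ℤ) ∣ (x : ℚ).num := by
  have hl : l.Prime := Fact.out
  constructor
  · rintro ⟨y, rfl⟩
    have hy : (y : ℚ).den.Coprime l := y.2
    have h1 : ((((l : ℕ) : fz_Zl l) * y : fz_Zl l) : ℚ) = (l : ℚ) * (y : ℚ) := by
      push_cast; rfl
    rw [h1]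
    have h2 : ((l : ℚ) * (y : ℚ)).num = (l : ℤ) * (y : ℚ).num := by
      rw [Rat.mul_num]
      have hg : Nat.gcd (((l : ℚ).num * (y : ℚ).num).natAbs) ((l : ℚ).den * (y : ℚ).den) = 1 := by
        rw [Rat.num_natCast, Rat.den_natCast, one_mul, Int.natAbs_mul, Int.natAbs_natCast]
        exact Nat.Coprime.mul_left hy.symm (y : ℚ).reduced
      rw [hg, Rat.num_natCast]
      simp
    rw [h2]
    exact dvd_mul_right _ _
  · rintro ⟨m, hm⟩
    have hx : (x : ℚ).den.Coprime l := x.2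
    refine ⟨⟨(m : ℚ) / ((x : ℚ).den : ℚ), fz_divInt_mem l m hx⟩, ?_⟩
    apply Subtype.ext
    have h1 : ((((l : ℕ) : fz_Zl l) * ⟨(m : ℚ) / ((x : ℚ).den : ℚ), fz_divInt_mem l m hx⟩ :
        fz_Zl l) : ℚ) = (l : ℚ) * ((m : ℚ) / ((x : ℚ).den : ℚ)) := by
      push_cast; rfl
    rw [h1]
    calc (x : ℚ) = ((x : ℚ).num : ℚ) / ((x : ℚ).den : ℚ) := (Rat.num_div_den _).symm
      _ = (l : ℚ) * ((m : ℚ) / ((x : ℚ).den : ℚ)) := by
          rw [hm]; push_cast; ring

/-- An element not divisible by `l` is a unit of `ℤ_(l)`. -/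
theorem fz_isUnit_of_not_dvd {x : fz_Zl l} (h : ¬ ((l : ℕ) : fz_Zl l) ∣ x) : IsUnit x := by
  have hl : l.Prime := Fact.out
  rw [fz_dvd_iff] at h
  have hnum : (x : ℚ).num ≠ 0 := by
    intro h0; apply h; rw [h0]; exact dvd_zero _
  have hx0 : (x : ℚ) ≠ 0 := by
    intro h0; apply hnum; rw [h0]; rfl
  have hcop : ((x : ℚ).num.natAbs).Coprime l := by
    rw [Nat.coprime_comm, Nat.Prime.coprime_iff_not_dvd hl]
    intro hd
    apply h
    exact Int.natCast_dvd.mpr hd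
  have hinv : (x : ℚ)⁻¹ ∈ GaloisRep.ratLocalizedAt l := by
    rw [fz_mem_iff]
    rw [Rat.inv_def]
    have hd : (Rat.divInt ((x : ℚ).den : ℤ) (x : ℚ).num).den ∣ (x : ℚ).num.natAbs := by
      have := Rat.den_dvd ((x : ℚ).den : ℤ) (x : ℚ).num
      exact Int.natCast_dvd.mp this
    exact Nat.Coprime.coprime_dvd_left hd hcop
  refine IsUnit.of_mul_eq_one ⟨(x : ℚ)⁻¹, hinv⟩ ?_
  apply Subtype.ext
  show (x : ℚ) * (x : ℚ)⁻¹ = 1
  exact mul_inv_cancel₀ hx0

theorem fz_num_mul (y : fz_Zl l) :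
    ((((l : ℕ) : fz_Zl l) * y : fz_Zl l) : ℚ).num = (l : ℤ) * (y : ℚ).num := by
  have hy : (y : ℚ).den.Coprime l := y.2
  have h1 : ((((l : ℕ) : fz_Zl l) * y : fz_Zl l) : ℚ) = (l : ℚ) * (y : ℚ) := by
    push_cast; rfl
  rw [h1, Rat.mul_num]
  have hg : Nat.gcd (((l : ℚ).num * (y : ℚ).num).natAbs) ((l : ℚ).den * (y : ℚ).den) = 1 := by
    rw [Rat.num_natCast, Rat.den_natCast, one_mul, Int.natAbs_mul, Int.natAbs_natCast]
    exact Nat.Coprime.mul_left hy.symm (y : ℚ).reduced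
  rw [hg, Rat.num_natCast]
  simp

theorem fz_l_ne_zero : ((l : ℕ) : fz_Zl l) ≠ 0 := by
  have hl : l.Prime := Fact.out
  intro h
  have h2 : (((l : ℕ) : fz_Zl l) : ℚ) = 0 := by rw [h]; rfl
  rw [fz_coe_natCast] at h2
  exact hl.ne_zero (by exact_mod_cast h2)

theorem fz_not_isUnit_l : ¬ IsUnit ((l : ℕ) : fz_Zl l) := by
  have hl : l.Prime := Fact.out
  intro h
  have h1 : ((l : ℕ) : fz_Zl l) ∣ 1 := h.dvd
  rw [fz_dvd_iff] at h1
  have h2 : ((1 : fz_Zl l) : ℚ).num = 1 := by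
    show (1 : ℚ).num = 1
    rfl
  rw [h2] at h1
  have := Int.eq_one_of_dvd_one (by positivity) h1
  have : l = 1 := by exact_mod_cast this
  exact hl.one_lt.ne' this

/-- `l` is a prime element of `ℤ_(l)`. -/
theorem fz_prime : Prime ((l : ℕ) : fz_Zl l) := by
  refine ⟨fz_l_ne_zero l, fz_not_isUnit_l l, ?_⟩
  intro a b hab
  by_cases ha : ((l : ℕ) : fz_Zl l) ∣ a
  · exact Or.inl ha
  · right
    have hu := fz_isUnit_of_not_dvd l ha
    exact (hu.dvd_mul_left).mp hab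

theorem fz_irreducible : Irreducible ((l : ℕ) : fz_Zl l) := (fz_prime l).irreducible

/-- Every nonzero element of `ℤ_(l)` is `l ^ n` times a unit. -/
theorem fz_exists_pow_mul_unit (x : fz_Zl l) (hx : x ≠ 0) :
    ∃ (n : ℕ) (u : (fz_Zl l)ˣ), x = ((l : ℕ) : fz_Zl l) ^ n * u := by
  have hl : l.Prime := Fact.out
  induction' hk : (x : ℚ).num.natAbs using Nat.strong_induction_on with k ih generalizing x
  by_cases hd : ((l : ℕ) : fz_Zl l) ∣ x
  · obtain ⟨y, rfl⟩ := hd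
    have hy0 : y ≠ 0 := by
      rintro rfl; exact hx (mul_zero _)
    have hynum : (y : ℚ).num ≠ 0 := by
      intro h0
      apply hy0
      apply Subtype.ext
      exact Rat.zero_of_num_zero h0
    have hlt : (y : ℚ).num.natAbs < k := by
      rw [← hk, fz_num_mul, Int.natAbs_mul, Int.natAbs_natCast]
      have hpos : 0 < (y : ℚ).num.natAbs := Int.natAbs_pos.mpr hynum
      calc (y : ℚ).num.natAbs = 1 * (y : ℚ).num.natAbs := (one_mul _).symm
        _ < l * (y : ℚ).num.natAbs := Nat.mul_lt_mul_of_pos_right hl.one_lt hpos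
    obtain ⟨n, u, hu⟩ := ih _ hlt y hy0 rfl
    refine ⟨n + 1, u, ?_⟩
    rw [hu, pow_succ]
    ring
  · obtain ⟨u, hu⟩ := fz_isUnit_of_not_dvd l hd
    exact ⟨0, u, by rw [pow_zero, one_mul, hu]⟩

theorem fz_hasUnitMulPow :
    IsDiscreteValuationRing.HasUnitMulPowIrreducibleFactorization (fz_Zl l) := by
  refine ⟨((l : ℕ) : fz_Zl l), fz_irreducible l, ?_⟩
  intro x hx
  obtain ⟨n, u, hu⟩ := fz_exists_pow_mul_unit l x hx
  exact ⟨n, u, hu.symm⟩

/-- `ℤ_(l)` is a discrete valuation ring. -/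
instance fz_isDVR : IsDiscreteValuationRing (fz_Zl l) :=
  IsDiscreteValuationRing.ofHasUnitMulPowIrreducibleFactorization (fz_hasUnitMulPow l)

example : UniqueFactorizationMonoid (fz_Zl l) := inferInstance
example : IsIntegrallyClosed (fz_Zl l) := inferInstance
example : IsPrincipalIdealRing (fz_Zl l) := inferInstance

end Basic

section ResidueField

variable (l : ℕ) [Fact l.Prime]

theorem fz_span_eq_maximalIdeal :
    Ideal.span {((l : ℕ) : fz_Zl l)} = IsLocalRing.maximalIdeal (fz_Zl l) :=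
  ((fz_irreducible l).maximalIdeal_eq).symm

instance fz_isMaximal : (Ideal.span {((l : ℕ) : fz_Zl l)}).IsMaximal := by
  rw [fz_span_eq_maximalIdeal]
  infer_instance

/-- The residue field `𝔽_l = ℤ_(l) / (l)`. -/
abbrev fz_F : Type := fz_Zl l ⧸ Ideal.span {((l : ℕ) : fz_Zl l)}

noncomputable instance fz_field : Field (fz_F l) := Ideal.Quotient.field _

instance fz_charP : CharP (fz_F l) l := by
  have h : ((l : ℕ) : fz_Zl l) ∈ nonunits (fz_Zl l) := fz_not_isUnit_l l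
  exact CharP.quotient (fz_Zl l) l h

theorem fz_algebraMap_surjective : Function.Surjective (algebraMap (fz_Zl l) (fz_F l)) :=
  Ideal.Quotient.mk_surjective

theorem fz_algebraMap_eq_zero_iff (x : fz_Zl l) :
    algebraMap (fz_Zl l) (fz_F l) x = 0 ↔ ∃ x', x = ((l : ℕ) : fz_Zl l) * x' := by
  show Ideal.Quotient.mk _ x = 0 ↔ _
  rw [Ideal.Quotient.eq_zero_iff_mem, Ideal.mem_span_singleton]
  rfl

theorem fz_algebraMap_eq_zero_iff_dvd (x : fz_Zl l) :
    algebraMap (fz_Zl l) (fz_F l) x = 0 ↔ ((l : ℕ) : fz_Zl l) ∣ x := by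
  show Ideal.Quotient.mk _ x = 0 ↔ _
  rw [Ideal.Quotient.eq_zero_iff_mem, Ideal.mem_span_singleton]

variable (K : Type) [Field K] [Algebra (fz_Zl l) K] [CharP K l]

theorem fz_lift_aux (a : fz_Zl l) (ha : a ∈ Ideal.span {((l : ℕ) : fz_Zl l)}) :
    algebraMap (fz_Zl l) K a = 0 := by
  rw [Ideal.mem_span_singleton] at ha
  obtain ⟨b, rfl⟩ := ha
  rw [map_mul, map_natCast, CharP.cast_eq_zero, zero_mul]

/-- The ring hom `𝔽_l → K` for a `ℤ_(l)`-algebra `K` of characteristic `l`. -/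
noncomputable def fz_toField : fz_F l →+* K :=
  Ideal.Quotient.lift _ (algebraMap (fz_Zl l) K) (fz_lift_aux l K)

theorem fz_toField_mk (a : fz_Zl l) :
    fz_toField l K (algebraMap (fz_Zl l) (fz_F l) a) = algebraMap (fz_Zl l) K a := rfl

/-- The `𝔽_l`-algebra structure on a `ℤ_(l)`-algebra `K` of characteristic `l`
(a definition, not an instance). -/
@[reducible] noncomputable def fz_algebra : Algebra (fz_F l) K := (fz_toField l K).toAlgebra

theorem fz_algebraMap_eq :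
    @algebraMap (fz_F l) K _ _ (fz_algebra l K) = fz_toField l K := rfl

theorem fz_isScalarTower :
    @IsScalarTower (fz_Zl l) (fz_F l) K _ (fz_algebra l K).toSMul _ := by
  let _ := fz_algebra l K
  exact IsScalarTower.of_algebraMap_eq (fun x => rfl)

end ResidueField

section Transcendental

variable (l : ℕ) [Fact l.Prime] {F : Type} [Field F] [Algebra (fz_Zl l) F] (x : F)

/-- The polynomial ring over `ℤ_(l)` is identified with `ℤ_(l)[x]` for transcendental `x`. -/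
noncomputable def fz_equiv (hx : Transcendental (fz_Zl l) x) :
    Polynomial (fz_Zl l) ≃ₐ[fz_Zl l] ↥(Algebra.adjoin (fz_Zl l) {x}) :=
  (AlgEquiv.ofInjective (Polynomial.aeval x : Polynomial (fz_Zl l) →ₐ[fz_Zl l] F)
      (transcendental_iff_injective.mp hx)).trans
    (Subalgebra.equivOfEq _ _ (Algebra.adjoin_singleton_eq_range_aeval (fz_Zl l) x).symm)

theorem fz_equiv_coe (hx : Transcendental (fz_Zl l) x) (p : Polynomial (fz_Zl l)) :
    ((fz_equiv l x hx p : ↥(Algebra.adjoin (fz_Zl l) {x})) : F) = Polynomial.aeval x p := rfl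

theorem fz_equiv_C (hx : Transcendental (fz_Zl l) x) (a : fz_Zl l) :
    fz_equiv l x hx (Polynomial.C a) = algebraMap (fz_Zl l) ↥(Algebra.adjoin (fz_Zl l) {x}) a := by
  rw [← Polynomial.algebraMap_eq, AlgEquiv.commutes]

theorem fz_equiv_X (hx : Transcendental (fz_Zl l) x) :
    ((fz_equiv l x hx Polynomial.X : ↥(Algebra.adjoin (fz_Zl l) {x})) : F) = x := by
  rw [fz_equiv_coe, Polynomial.aeval_X]

theorem fz_isIntegrallyClosed_adjoin (hx : Transcendental (fz_Zl l) x) :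
    IsIntegrallyClosed ↥(Algebra.adjoin (fz_Zl l) {x}) :=
  IsIntegrallyClosed.of_equiv (fz_equiv l x hx).toRingEquiv

theorem fz_ufm_adjoin (hx : Transcendental (fz_Zl l) x) :
    UniqueFactorizationMonoid ↥(Algebra.adjoin (fz_Zl l) {x}) :=
  (fz_equiv l x hx).toMulEquiv.uniqueFactorizationMonoid inferInstance

/-- `l` stays prime in `ℤ_(l)[x]`. -/
theorem fz_prime_adjoin (hx : Transcendental (fz_Zl l) x) :
    Prime (algebraMap (fz_Zl l) ↥(Algebra.adjoin (fz_Zl l) {x}) ((l : ℕ) : fz_Zl l)) := by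
  have h1 : Prime (Polynomial.C ((l : ℕ) : fz_Zl l)) := Polynomial.prime_C_iff.mpr (fz_prime l)
  have h2 := (MulEquiv.prime_iff (fz_equiv l x hx).toMulEquiv).mpr h1
  rw [← fz_equiv_C l x hx]
  exact h2

theorem fz_max_power_factor (hx : Transcendental (fz_Zl l) x)
    (a : ↥(Algebra.adjoin (fz_Zl l) {x})) (ha : a ≠ 0) :
    ∃ (k : ℕ) (s : ↥(Algebra.adjoin (fz_Zl l) {x})),
      ¬ algebraMap (fz_Zl l) ↥(Algebra.adjoin (fz_Zl l) {x}) ((l : ℕ) : fz_Zl l) ∣ s ∧
      a = (algebraMap (fz_Zl l) ↥(Algebra.adjoin (fz_Zl l) {x}) ((l : ℕ) : fz_Zl l)) ^ k * s := by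
  have := fz_ufm_adjoin l x hx
  exact WfDvdMonoid.max_power_factor ha (fz_prime_adjoin l x hx).irreducible

theorem fz_dvd_equiv_iff (hx : Transcendental (fz_Zl l) x) (p : Polynomial (fz_Zl l)) :
    algebraMap (fz_Zl l) ↥(Algebra.adjoin (fz_Zl l) {x}) ((l : ℕ) : fz_Zl l) ∣ fz_equiv l x hx p ↔
      p.map (algebraMap (fz_Zl l) (fz_F l)) = 0 := by
  rw [← fz_equiv_C l x hx]
  rw [show (fz_equiv l x hx (Polynomial.C ((l : ℕ) : fz_Zl l)) ∣ fz_equiv l x hx p) ↔
      (Polynomial.C ((l : ℕ) : fz_Zl l) ∣ p) from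
    map_dvd_iff (fz_equiv l x hx)]
  rw [Polynomial.C_dvd_iff_dvd_coeff, Polynomial.ext_iff]
  refine forall_congr' (fun i => ?_)
  rw [Polynomial.coeff_map, Polynomial.coeff_zero, fz_algebraMap_eq_zero_iff_dvd]

end Transcendental

end Fermat.Agent.S28
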