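import Mathlib

/-!
# S28 front end, abstract part (W6)

`A` an integrally closed domain, `ℓ : A` prime, `F ⊇ A` a field, `A0 ⊆ F` a subalgebra of
integral elements ("`A[y]`") such that every integral element of `F` has a nonzero `A`-multiple
in `A0`, and `φ₀ : A0 →+* Ω` a ring hom to a field whose kernel is exactly `ℓ • A0`.
Then `φ₀` extends to the integral closure `B` of `A` in `F`, and the kernel of the extension is
exactly `ℓ • B`.  No discriminant, no separability.
-/

namespace Fermat.Agent.S28

open Polynomial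

section Coprime

variable {A F : Type*} [CommRing A] [IsDomain A] [IsIntegrallyClosed A]
  [Field F] [Algebra A F] [FaithfulSMul A F]

/-- **coprimality lemma**: if `ℓ • g` and `s • g` are integral over the integrally closed
domain `A`, `ℓ` prime and `ℓ ∤ s`, then `g` is integral. -/
theorem fe_isIntegral_of_smul {ℓ s : A} (hℓ : Prime ℓ) (hs : ¬ ℓ ∣ s) {g : F}
    (h1 : IsIntegral A (ℓ • g)) (h2 : IsIntegral A (s • g)) : IsIntegral A g := by
  have hs0 : s ≠ 0 := fun h => hs (h ▸ dvd_zero ℓ)
  have hℓ0 : ℓ ≠ 0 := hℓ.ne_zero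
  set p := minpoly A (ℓ • g) with hp
  set r := minpoly A (s • g) with hr
  -- the two descriptions of the minimal polynomial of `(ℓ * s) • g`
  have e1 : minpoly A (s • (ℓ • g)) = p.scaleRoots s := IsIntegrallyClosed.minpoly_smul hs0 h1
  have e2 : minpoly A (ℓ • (s • g)) = r.scaleRoots ℓ := IsIntegrallyClosed.minpoly_smul hℓ0 h2
  have e3 : s • (ℓ • g) = ℓ • (s • g) := smul_comm s ℓ g
  have e : p.scaleRoots s = r.scaleRoots ℓ := by rw [← e1, ← e2, e3]
  have hn : r.natDegree = p.natDegree := by
    have := congrArg natDegree e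
    rw [natDegree_scaleRoots, natDegree_scaleRoots] at this
    exact this.symm
  obtain ⟨n, hndef⟩ : ∃ n, n = p.natDegree := ⟨_, rfl⟩
  have hpm : p.Monic := minpoly.monic h1
  -- divisibility of the coefficients
  have hdiv : ∀ i, ℓ ^ (n - i) ∣ p.coeff i := by
    intro i
    have hc : p.coeff i * s ^ (p.natDegree - i) = r.coeff i * ℓ ^ (r.natDegree - i) := by
      have := congrArg (fun q => q.coeff i) e
      simpa only [coeff_scaleRoots] using this
    rw [hn, ← hndef] at hc
    refine hℓ.pow_dvd_of_dvd_mul_right (b := s ^ (n - i)) (n - i)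
      (fun h => hs (hℓ.dvd_of_dvd_pow h)) ?_
    rw [hc]
    exact dvd_mul_left _ _
  choose c hc using hdiv
  -- the polynomial `q` with `q.scaleRoots ℓ = p`
  let q : A[X] := X ^ n + ∑ i ∈ Finset.range n, C (c i) * X ^ i
  have hqdeg : (∑ i ∈ Finset.range n, C (c i) * X ^ i : A[X]).degree < n := by
    refine (degree_sum_le _ _).trans_lt ?_
    rw [Finset.sup_lt_iff (by exact WithBot.bot_lt_coe n)]
    intro i hi
    refine (degree_C_mul_X_pow_le i (c i)).trans_lt ?_
    exact_mod_cast Finset.mem_range.mp hi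
  have hqm : q.Monic := monic_X_pow_add hqdeg
  refine ⟨q, hqm, ?_⟩
  -- `ℓ ^ n • q(g) = p (ℓ • g) = 0`
  have hp0 : aeval (ℓ • g) p = 0 := minpoly.aeval A (ℓ • g)
  have hpexp : aeval (ℓ • g) p = ∑ i ∈ Finset.range (n + 1), p.coeff i • (ℓ • g) ^ i := by
    rw [aeval_eq_sum_range, hndef]
  have key : (algebraMap A F ℓ) ^ n * aeval g q = aeval (ℓ • g) p := by
    have hcn : p.coeff n = 1 := by rw [hndef]; exact hpm.coeff_natDegree
    rw [hpexp, Finset.sum_range_succ, hcn, one_smul]
    simp only [q, map_add, map_pow, aeval_X, map_sum, map_mul, aeval_C]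
    rw [mul_add, Finset.mul_sum, add_comm]
    congr 1
    · refine Finset.sum_congr rfl fun i hi => ?_
      have hi' : i ≤ n := (Finset.mem_range.mp hi).le
      rw [hc i, Algebra.smul_def, Algebra.smul_def, map_mul, map_pow, mul_pow]
      have : (algebraMap A F ℓ) ^ n = (algebraMap A F ℓ) ^ (n - i) * (algebraMap A F ℓ) ^ i := by
        rw [← pow_add, Nat.sub_add_cancel hi']
      rw [this]; ring
    · rw [Algebra.smul_def, mul_pow]
  have hℓF : algebraMap A F ℓ ≠ 0 := by
    rw [Ne, FaithfulSMul.algebraMap_eq_zero_iff]; exact hℓ0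
  rw [hp0] at key
  rcases mul_eq_zero.mp key with h | h
  · exact absurd (pow_eq_zero_iff (n := n) (by
      intro hn0
      -- n = 0 would make p = 1, impossible
      have : p = 1 := by
        have := hpm
        exact eq_one_of_monic_natDegree_zero hpm (by rw [← hndef]; exact hn0)
      exact minpoly.ne_one A (ℓ • g) this) |>.mp h) hℓF
  · rw [← aeval_def] at *
    exact h

end Coprime

section Extension

variable {A F Ω : Type*} [CommRing A] [IsDomain A] [IsIntegrallyClosed A]
  [Field F] [Algebra A F] [FaithfulSMul A F] [Field Ω]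

/-- the hypotheses of the abstract front end, bundled -/
structure FEData (A F Ω : Type*) [CommRing A] [Field F] [Algebra A F] [Field Ω] where
  /-- the prime element -/
  ell : A
  /-- the small subalgebra `A[y]` -/
  A0 : Subalgebra A F
  /-- the reduction map on `A[y]` -/
  phi0 : A0 →+* Ω
  prime_ell : Prime ell
  integral_A0 : ∀ x ∈ A0, IsIntegral A x
  exists_smul_mem : ∀ b : F, IsIntegral A b → ∃ a : A, a ≠ 0 ∧ a • b ∈ A0
  exists_pow_mul : ∀ a : A, a ≠ 0 → ∃ (k : ℕ) (s : A), ¬ ell ∣ s ∧ a = ell ^ k * s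
  ker_phi0 : ∀ x : A0, phi0 x = 0 ↔ ∃ x' : A0, x = ell • x'
  phi0_ne_zero : ∀ s : A, ¬ ell ∣ s → phi0 (algebraMap A A0 s) ≠ 0

namespace FEData

variable (D : FEData A F Ω)

omit [IsDomain A] [IsIntegrallyClosed A] in
theorem ell_ne_zero : algebraMap A F D.ell ≠ 0 := by
  rw [Ne, FaithfulSMul.algebraMap_eq_zero_iff]; exact D.prime_ell.ne_zero

/-- `A[y]` is `ℓ`-saturated among the integral elements -/
theorem mem_A0_of_smul_mem {b : F} (hb : IsIntegral A b) (h : D.ell • b ∈ D.A0) : b ∈ D.A0 := by
  obtain ⟨p, hpm, hp⟩ := hb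
  have hp' : aeval b p = 0 := by rw [aeval_def]; exact hp
  set x : D.A0 := ⟨D.ell • b, h⟩ with hx
  -- `x` is a root of `p.scaleRoots ℓ`
  have hroot : aeval x (p.scaleRoots D.ell) = 0 := by
    apply Subtype.ext
    have h1 : ((aeval x (p.scaleRoots D.ell) : D.A0) : F) = aeval (x : F) (p.scaleRoots D.ell) := by
      rw [← Subalgebra.coe_val, ← aeval_algHom_apply]
    rw [h1, ZeroMemClass.coe_zero]
    show aeval (D.ell • b) (p.scaleRoots D.ell) = 0
    rw [Algebra.smul_def]
    exact scaleRoots_aeval_eq_zero hp'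
  have hn : p.natDegree ≠ 0 := by
    intro hn0
    have : p = 1 := eq_one_of_monic_natDegree_zero hpm hn0
    rw [this, map_one] at hp'
    exact one_ne_zero hp'
  -- apply `φ₀`
  have hphi : D.phi0 x ^ p.natDegree = 0 := by
    have h2 := congrArg D.phi0 hroot
    rw [map_zero, aeval_eq_sum_range, map_sum, natDegree_scaleRoots, Finset.sum_range_succ] at h2
    have hz : ∀ i ∈ Finset.range p.natDegree,
        D.phi0 ((p.scaleRoots D.ell).coeff i • x ^ i) = 0 := by
      intro i hi
      have hi' : i < p.natDegree := Finset.mem_range.mp hi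
      rw [coeff_scaleRoots]
      have : p.coeff i * D.ell ^ (p.natDegree - i) =
          D.ell * (p.coeff i * D.ell ^ (p.natDegree - i - 1)) := by
        have : D.ell ^ (p.natDegree - i) = D.ell * D.ell ^ (p.natDegree - i - 1) := by
          rw [← pow_succ']; congr 1; omega
        rw [this]; ring
      rw [this, mul_smul]
      exact (D.ker_phi0 _).mpr ⟨_, rfl⟩
    rw [Finset.sum_eq_zero hz, zero_add, coeff_scaleRoots_natDegree, hpm.leadingCoeff, one_smul,
      map_pow] at h2
    exact h2
  have hphi0 : D.phi0 x = 0 := pow_eq_zero_iff hn |>.mp hphi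
  obtain ⟨x', hx'⟩ := (D.ker_phi0 x).mp hphi0
  have h3 : D.ell • b = D.ell • (x' : F) := by
    have := congrArg (fun z : D.A0 => (z : F)) hx'
    simpa [hx] using this
  rw [Algebra.smul_def, Algebra.smul_def] at h3
  have h4 : b = (x' : F) := mul_left_cancel₀ D.ell_ne_zero h3
  rw [h4]; exact x'.2

/-- every integral element has a denominator prime to `ℓ` -/
theorem exists_not_dvd_smul_mem {b : F} (hb : IsIntegral A b) :
    ∃ s : A, ¬ D.ell ∣ s ∧ s • b ∈ D.A0 := by
  obtain ⟨a, ha0, ha⟩ := D.exists_smul_mem b hb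
  obtain ⟨k, s, hs, rfl⟩ := D.exists_pow_mul a ha0
  refine ⟨s, hs, ?_⟩
  induction k with
  | zero => simpa using ha
  | succ k ih =>
    apply ih
    · intro h0
      apply ha0
      rw [pow_succ, mul_assoc, mul_comm D.ell, ← mul_assoc, h0, zero_mul]
    · have hint : IsIntegral A ((D.ell ^ k * s) • b) := hb.smul _
      apply D.mem_A0_of_smul_mem hint
      rw [smul_smul]
      convert ha using 2
      ring

/-- the chosen denominator -/
noncomputable def den (b : integralClosure A F) : A :=
  (D.exists_not_dvd_smul_mem b.2).choose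

theorem den_not_dvd (b : integralClosure A F) : ¬ D.ell ∣ D.den b :=
  (D.exists_not_dvd_smul_mem b.2).choose_spec.1

theorem den_smul_mem (b : integralClosure A F) : D.den b • (b : F) ∈ D.A0 :=
  (D.exists_not_dvd_smul_mem b.2).choose_spec.2

/-- the extension of `φ₀` to the integral closure, as a function -/
noncomputable def extFun (b : integralClosure A F) : Ω :=
  D.phi0 ⟨D.den b • (b : F), D.den_smul_mem b⟩ / D.phi0 (algebraMap A D.A0 (D.den b))

theorem extFun_spec (b : integralClosure A F) {s : A} (_hs : ¬ D.ell ∣ s)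
    (h : s • (b : F) ∈ D.A0) :
    D.extFun b * D.phi0 (algebraMap A D.A0 s) = D.phi0 ⟨s • (b : F), h⟩ := by
  have h0 := D.phi0_ne_zero _ (D.den_not_dvd b)
  rw [extFun, div_mul_eq_mul_div, div_eq_iff h0, ← map_mul, ← map_mul]
  congr 1
  apply Subtype.ext
  simp only [MulMemClass.coe_mul, Subalgebra.coe_algebraMap]
  rw [Algebra.smul_def, Algebra.smul_def]
  ring

theorem extFun_eq_iff (b : integralClosure A F) {s : A} (hs : ¬ D.ell ∣ s)
    (h : s • (b : F) ∈ D.A0) (c : Ω) :
    D.extFun b = c ↔ D.phi0 ⟨s • (b : F), h⟩ = c * D.phi0 (algebraMap A D.A0 s) := by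
  rw [← D.extFun_spec b hs h]
  exact (mul_left_injective₀ (D.phi0_ne_zero s hs)).eq_iff.symm

theorem not_dvd_mul {s t : A} (hs : ¬ D.ell ∣ s) (ht : ¬ D.ell ∣ t) : ¬ D.ell ∣ s * t :=
  fun h => (D.prime_ell.dvd_or_dvd h).elim hs ht

/-- **the extension of `φ₀` to the integral closure** -/
noncomputable def ext : integralClosure A F →+* Ω where
  toFun := D.extFun
  map_one' := by
    have h1 : ¬ D.ell ∣ (1 : A) := fun h => D.prime_ell.not_isUnit (isUnit_of_dvd_one h)
    have hm : (1 : A) • ((1 : integralClosure A F) : F) ∈ D.A0 := by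
      rw [one_smul]; exact D.A0.one_mem
    rw [D.extFun_eq_iff 1 h1 hm, one_mul]
    congr 1
    apply Subtype.ext
    simp
  map_mul' := by
    intro b b'
    have hs := D.den_not_dvd b
    have hs' := D.den_not_dvd b'
    have hm : (D.den b * D.den b') • ((b * b' : integralClosure A F) : F) ∈ D.A0 := by
      have := D.A0.mul_mem (D.den_smul_mem b) (D.den_smul_mem b')
      convert this using 1
      simp only [MulMemClass.coe_mul, Algebra.smul_def, map_mul]; ring
    rw [D.extFun_eq_iff (b * b') (D.not_dvd_mul hs hs') hm, map_mul, map_mul,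
      mul_mul_mul_comm, D.extFun_spec b hs (D.den_smul_mem b),
      D.extFun_spec b' hs' (D.den_smul_mem b'), ← map_mul]
    congr 1
    apply Subtype.ext
    simp only [MulMemClass.coe_mul, Algebra.smul_def, map_mul]; ring
  map_zero' := by
    have h1 : ¬ D.ell ∣ (1 : A) := fun h => D.prime_ell.not_isUnit (isUnit_of_dvd_one h)
    have hm : (1 : A) • ((0 : integralClosure A F) : F) ∈ D.A0 := by
      rw [one_smul]; exact D.A0.zero_mem
    rw [D.extFun_eq_iff 0 h1 hm, zero_mul]
    have : (⟨(1 : A) • ((0 : integralClosure A F) : F), hm⟩ : D.A0) = 0 := by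
      apply Subtype.ext; simp
    rw [this, map_zero]
  map_add' := by
    intro b b'
    have hs := D.den_not_dvd b
    have hs' := D.den_not_dvd b'
    have hm1 : (D.den b * D.den b') • (b : F) ∈ D.A0 := by
      rw [mul_comm, mul_smul]; exact D.A0.smul_mem (D.den_smul_mem b) _
    have hm2 : (D.den b * D.den b') • (b' : F) ∈ D.A0 := by
      rw [mul_smul]; exact D.A0.smul_mem (D.den_smul_mem b') _
    have hm : (D.den b * D.den b') • ((b + b' : integralClosure A F) : F) ∈ D.A0 := by
      have := D.A0.add_mem hm1 hm2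
      convert this using 1
      simp only [AddMemClass.coe_add, smul_add]
    rw [D.extFun_eq_iff (b + b') (D.not_dvd_mul hs hs') hm, add_mul,
      D.extFun_spec b (D.not_dvd_mul hs hs') hm1, D.extFun_spec b' (D.not_dvd_mul hs hs') hm2,
      ← map_add]
    congr 1
    apply Subtype.ext
    simp only [AddMemClass.coe_add, smul_add]

theorem ext_apply (b : integralClosure A F) : D.ext b = D.extFun b := rfl

/-- the extension restricts to `φ₀` on `A[y]` -/
theorem ext_eq_phi0 (x : D.A0) : D.ext ⟨x, D.integral_A0 x x.2⟩ = D.phi0 x := by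
  have h1 : ¬ D.ell ∣ (1 : A) := fun h => D.prime_ell.not_isUnit (isUnit_of_dvd_one h)
  have hm : (1 : A) • ((⟨x, D.integral_A0 x x.2⟩ : integralClosure A F) : F) ∈ D.A0 := by
    rw [one_smul]; exact x.2
  rw [ext_apply, D.extFun_eq_iff _ h1 hm, map_one, map_one, mul_one]
  congr 1
  apply Subtype.ext
  simp

/-- **the kernel of the extension is `ℓ • B`** -/
theorem ext_eq_zero_iff (b : integralClosure A F) :
    D.ext b = 0 ↔ ∃ b' : integralClosure A F, b = D.ell • b' := by
  have hs := D.den_not_dvd b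
  rw [ext_apply, D.extFun_eq_iff b hs (D.den_smul_mem b), zero_mul, D.ker_phi0]
  constructor
  · rintro ⟨x', hx'⟩
    have hx : D.den b • (b : F) = D.ell • (x' : F) := by
      have := congrArg (fun z : D.A0 => (z : F)) hx'
      simpa using this
    -- `g = b / ℓ`
    set g : F := (algebraMap A F D.ell)⁻¹ * (b : F) with hg
    have h1 : D.ell • g = (b : F) := by
      rw [hg, Algebra.smul_def, mul_inv_cancel_left₀ D.ell_ne_zero]
    have h2 : D.den b • g = (x' : F) := by
      have : D.ell • (D.den b • g) = D.ell • (x' : F) := by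
        rw [smul_comm, h1, hx]
      rw [Algebra.smul_def, Algebra.smul_def (D.ell)] at this
      exact mul_left_cancel₀ D.ell_ne_zero this
    have hgint : IsIntegral A g :=
      fe_isIntegral_of_smul D.prime_ell hs (h1 ▸ b.2) (h2 ▸ D.integral_A0 _ x'.2)
    refine ⟨⟨g, hgint⟩, ?_⟩
    apply Subtype.ext
    rw [← h1]
    rfl
  · rintro ⟨b', rfl⟩
    -- use the saturation: `den • b' ∈ A0`
    have hb' : D.den (D.ell • b') • (b' : F) ∈ D.A0 := by
      apply D.mem_A0_of_smul_mem (b'.2.smul _)
      have := D.den_smul_mem (D.ell • b')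
      rw [smul_comm]
      have hc : ((D.ell • b' : integralClosure A F) : F) = D.ell • (b' : F) := rfl
      rw [← hc]; exact this
    refine ⟨⟨_, hb'⟩, ?_⟩
    apply Subtype.ext
    have hc : ((D.ell • b' : integralClosure A F) : F) = D.ell • (b' : F) := rfl
    show D.den (D.ell • b') • ((D.ell • b' : integralClosure A F) : F) =
      D.ell • (D.den (D.ell • b') • (b' : F))
    rw [hc, smul_comm]

end FEData

end Extension

end Fermat.Agent.S28
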