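import Mathlib
import Fermat.Prelude.Def_ModularCurve_LaurentCoeff

/-!
# S28 front end (W6): the ring of `q`-series with coefficients in a subring, and its reduction

For a subring `R ⊆ ℚ` the series in `ℚ((q))` all of whose coefficients lie in `R` form a subring
(the range of `coeffMap R.subtype`), isomorphic to `R((q))`; composing with a ring hom
`red : R →+* 𝔽` gives the coefficientwise reduction.
-/

namespace Fermat.Agent.S28

open ModularCurve

section CoeffRing

variable {Q : Type} [CommRing Q] (R : Subring Q)

/-- the series with all coefficients in `R` -/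
noncomputable abbrev fe_coeffRing : Subring (LaurentSeries Q) := (coeffMap R.subtype).range

theorem fe_coeffMap_subtype_injective : Function.Injective (coeffMap R.subtype) := by
  intro x y h
  ext m
  have := congrArg (fun f : LaurentSeries Q => f.coeff m) h
  simp only [coeffMap_coeff] at this
  exact this

theorem fe_coeffMap_mem (g : LaurentSeries R) : coeffMap R.subtype g ∈ fe_coeffRing R :=
  ⟨g, rfl⟩

theorem fe_mem_coeffRing_iff {x : LaurentSeries Q} :
    x ∈ fe_coeffRing R ↔ ∀ m, x.coeff m ∈ R := by
  constructor
  · rintro ⟨g, rfl⟩ m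
    rw [coeffMap_coeff]
    exact (g.coeff m).2
  · intro h
    have hsupp : Function.support (fun m => (⟨x.coeff m, h m⟩ : R)) = x.support := by
      ext m
      simp only [Function.mem_support, HahnSeries.mem_support, ne_eq]
      rw [← Subtype.coe_inj]
      rfl
    refine ⟨⟨fun m => ⟨x.coeff m, h m⟩, ?_⟩, ?_⟩
    · rw [hsupp]; exact x.isPWO_support
    · ext m
      rfl

theorem fe_rangeRestrict_bijective :
    Function.Bijective (coeffMap R.subtype).rangeRestrict :=
  ⟨fun _ _ h => fe_coeffMap_subtype_injective R (congrArg Subtype.val h),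
    (coeffMap R.subtype).rangeRestrict_surjective⟩

/-- the lift `fe_coeffRing R ≃ R((q))` -/
noncomputable def fe_liftR : fe_coeffRing R ≃+* LaurentSeries R :=
  (RingEquiv.ofBijective (coeffMap R.subtype).rangeRestrict
    (fe_rangeRestrict_bijective R)).symm

theorem fe_liftR_mk (g : LaurentSeries R) :
    fe_liftR R ⟨coeffMap R.subtype g, fe_coeffMap_mem R g⟩ = g := by
  have : (⟨coeffMap R.subtype g, fe_coeffMap_mem R g⟩ : fe_coeffRing R) =
      RingEquiv.ofBijective (coeffMap R.subtype).rangeRestrict
        (fe_rangeRestrict_bijective R) g := rfl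
  rw [this, fe_liftR, RingEquiv.symm_apply_apply]

variable {𝔽 : Type} [CommRing 𝔽] (red : R →+* 𝔽)

/-- coefficientwise reduction -/
noncomputable def fe_redSeries : fe_coeffRing R →+* LaurentSeries 𝔽 :=
  (coeffMap red).comp (fe_liftR R : fe_coeffRing R →+* LaurentSeries R)

theorem fe_redSeries_mk (g : LaurentSeries R) :
    fe_redSeries R red ⟨coeffMap R.subtype g, fe_coeffMap_mem R g⟩ = coeffMap red g := by
  rw [fe_redSeries, RingHom.comp_apply]
  show coeffMap red (fe_liftR R _) = _
  rw [fe_liftR_mk]

theorem fe_redSeries_eq {x : fe_coeffRing R} {g : LaurentSeries R}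
    (h : coeffMap R.subtype g = x) : fe_redSeries R red x = coeffMap red g := by
  have : x = ⟨coeffMap R.subtype g, fe_coeffMap_mem R g⟩ := Subtype.ext h.symm
  rw [this, fe_redSeries_mk]

end CoeffRing

end Fermat.Agent.S28
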