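import Mathlib

/-!
# S28 front end (W6): fractions with denominators in `A`

`A` a domain inside a field `F`, `A0 ⊆ F` an `A`-subalgebra of integral elements.  Then
`{b | ∃ a ≠ 0, a • b ∈ A0}` is a subfield of `F` (it is `Frac(A) ⊗ A0`).
-/

namespace Fermat.Agent.S28

open Polynomial

variable {A F : Type*} [CommRing A] [IsDomain A] [Field F] [Algebra A F] [FaithfulSMul A F]

omit [FaithfulSMul A F] in
/-- a nonzero integral element is a root of a monic polynomial with nonzero constant term -/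
theorem fe_exists_monic_coeff_zero_ne_zero {z : F} (hz : IsIntegral A z) (hz0 : z ≠ 0) :
    ∃ p : A[X], p.Monic ∧ aeval z p = 0 ∧ p.coeff 0 ≠ 0 := by
  refine ⟨minpoly A z, minpoly.monic hz, minpoly.aeval A z, fun h0 => ?_⟩
  obtain ⟨p, hpdef⟩ : ∃ p, p = minpoly A z := ⟨_, rfl⟩
  rw [← hpdef] at h0
  have hpm : p.Monic := hpdef ▸ minpoly.monic hz
  have hp : p = divX p * X := by
    conv_lhs => rw [← divX_mul_X_add p, h0, C_0, add_zero]
  have hdm : (divX p).Monic := Monic.of_mul_monic_right monic_X (hp ▸ hpm)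
  have hroot : aeval z (divX p) = 0 := by
    have h1 : aeval z p = 0 := hpdef ▸ minpoly.aeval A z
    rw [hp, map_mul, aeval_X] at h1
    exact (mul_eq_zero.mp h1).resolve_right hz0
  have h2 := minpoly.min A z hdm hroot
  rw [← hpdef] at h2
  exact absurd h2 (not_le.mpr (degree_divX_lt hpm.ne_zero))

/-- the subfield of fractions `A0 / (A ∖ 0)` -/
def fe_fracSubfield (A0 : Subalgebra A F) (hint : ∀ x ∈ A0, IsIntegral A x) : Subfield F where
  carrier := {b | ∃ a : A, a ≠ 0 ∧ a • b ∈ A0}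
  mul_mem' := by
    rintro b b' ⟨a, ha, hab⟩ ⟨a', ha', hab'⟩
    refine ⟨a * a', mul_ne_zero ha ha', ?_⟩
    have : (a * a') • (b * b') = (a • b) * (a' • b') := by
      rw [Algebra.smul_def, Algebra.smul_def, Algebra.smul_def, map_mul]; ring
    rw [this]
    exact mul_mem hab hab'
  one_mem' := ⟨1, one_ne_zero, by rw [one_smul]; exact one_mem _⟩
  add_mem' := by
    rintro b b' ⟨a, ha, hab⟩ ⟨a', ha', hab'⟩
    refine ⟨a * a', mul_ne_zero ha ha', ?_⟩
    have : (a * a') • (b + b') = a' • (a • b) + a • (a' • b') := by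
      simp only [Algebra.smul_def, map_mul]; ring
    rw [this]
    exact add_mem (Subalgebra.smul_mem _ hab _) (Subalgebra.smul_mem _ hab' _)
  zero_mem' := ⟨1, one_ne_zero, by rw [smul_zero]; exact zero_mem _⟩
  neg_mem' := by
    rintro b ⟨a, ha, hab⟩
    exact ⟨a, ha, by rw [smul_neg]; exact neg_mem hab⟩
  inv_mem' := by
    rintro b ⟨a, ha, hab⟩
    by_cases hb : b = 0
    · exact ⟨1, one_ne_zero, by rw [hb, inv_zero, smul_zero]; exact zero_mem _⟩
    have haF : algebraMap A F a ≠ 0 := by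
      rw [Ne, FaithfulSMul.algebraMap_eq_zero_iff]; exact ha
    have hz0 : a • b ≠ 0 := by
      rw [Algebra.smul_def]; exact mul_ne_zero haF hb
    obtain ⟨p, -, hp, hc⟩ := fe_exists_monic_coeff_zero_ne_zero (hint _ hab) hz0
    refine ⟨p.coeff 0, hc, ?_⟩
    -- `z * q(z) = - c₀`
    have h1 : aeval (a • b) (divX p) * (a • b) + algebraMap A F (p.coeff 0) = 0 := by
      have := hp
      rw [← divX_mul_X_add p, map_add, map_mul, aeval_X, aeval_C] at this
      exact this
    have h2 : p.coeff 0 • b⁻¹ = - (a • aeval (a • b) (divX p)) := by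
      rw [Algebra.smul_def, Algebra.smul_def, eq_neg_of_add_eq_zero_right h1, Algebra.smul_def]
      field_simp
    rw [h2]
    refine neg_mem (Subalgebra.smul_mem _ ?_ _)
    have : aeval (a • b) (divX p) = ((aeval (⟨a • b, hab⟩ : A0) (divX p) : A0) : F) := by
      rw [← Subalgebra.coe_val, ← aeval_algHom_apply]
      rfl
    rw [this]
    exact SetLike.coe_mem _

theorem fe_mem_fracSubfield_iff (A0 : Subalgebra A F) (hint : ∀ x ∈ A0, IsIntegral A x) {b : F} :
    b ∈ fe_fracSubfield A0 hint ↔ ∃ a : A, a ≠ 0 ∧ a • b ∈ A0 := Iff.rfl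

theorem fe_le_fracSubfield (A0 : Subalgebra A F) (hint : ∀ x ∈ A0, IsIntegral A x) {b : F}
    (hb : b ∈ A0) : b ∈ fe_fracSubfield A0 hint :=
  ⟨1, one_ne_zero, by rw [one_smul]; exact hb⟩

end Fermat.Agent.S28
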