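import Mathlib
import Fermat.Prelude.Def_ModularCurve_LaurentCoeff

/-!
# S28 front end, tensor part (W6)

`R → 𝔽` a surjection onto a field, `K` a field extension of `𝔽`, `B` an `R`-algebra and
`φ : B →ₐ[R] 𝔽((q))` with kernel `ℓ • B`, where `ℓ ↦ 0` in `𝔽`.  Then
`B ⊗[R] K → K((q))`, `b ⊗ k ↦ φ(b) · k`, is injective; in particular `B ⊗[R] K` is a domain.
-/

namespace Fermat.Agent.S28

open TensorProduct ModularCurve

section Tensor

variable {R B 𝔽 K : Type} [CommRing R] [CommRing B] [Algebra R B] [Field 𝔽] [Algebra R 𝔽]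
  [Field K] [Algebra R K] [Algebra 𝔽 K] [IsScalarTower R 𝔽 K]

/-- every element of a tensor product is a finite sum of pure tensors -/
theorem fe_exists_sum_tmul (x : B ⊗[R] K) :
    ∃ (ι : Type) (_ : Fintype ι) (b : ι → B) (k : ι → K), x = ∑ i, b i ⊗ₜ[R] k i := by
  induction x using TensorProduct.induction_on with
  | zero => exact ⟨PEmpty, inferInstance, PEmpty.elim, PEmpty.elim, by simp⟩
  | tmul b k => exact ⟨PUnit, inferInstance, fun _ => b, fun _ => k, by simp⟩
  | add x y hx hy =>
    obtain ⟨ι, _, b, k, rfl⟩ := hx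
    obtain ⟨ι', _, b', k', rfl⟩ := hy
    refine ⟨ι ⊕ ι', inferInstance, Sum.elim b b', Sum.elim k k', ?_⟩
    rw [Fintype.sum_sum_type]
    rfl

variable (hsurj : Function.Surjective (algebraMap R 𝔽))
  (φ : B →+* LaurentSeries 𝔽)
  (hφ : ∀ r : R, φ (algebraMap R B r) = HahnSeries.C (algebraMap R 𝔽 r))
  (ℓ : R) (hℓ : algebraMap R 𝔽 ℓ = 0)
  (hker : ∀ b : B, φ b = 0 → ∃ b' : B, b = ℓ • b')

theorem fe_coeffMap_C {𝔽 K : Type} [CommRing 𝔽] [CommRing K] (f : 𝔽 →+* K) (c : 𝔽) :
    coeffMap f (HahnSeries.C c) = HahnSeries.C (f c) := by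
  ext m
  rw [coeffMap_coeff, HahnSeries.C_apply, HahnSeries.C_apply, HahnSeries.coeff_single,
    HahnSeries.coeff_single, apply_ite f, map_zero]

/-- the map `B ⊗[R] K → K((q))`, `b ⊗ k ↦ φ(b) · k` -/
noncomputable def fe_Psi : B ⊗[R] K →+* LaurentSeries K :=
  letI : Algebra R (LaurentSeries K) := HahnSeries.instAlgebra
  (Algebra.TensorProduct.lift (R := R) (S := R)
    ({ toRingHom := (coeffMap (algebraMap 𝔽 K)).comp φ
       commutes' := fun r => by
        show coeffMap (algebraMap 𝔽 K) (φ (algebraMap R B r)) = HahnSeries.C (algebraMap R K r)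
        rw [hφ, fe_coeffMap_C, ← IsScalarTower.algebraMap_apply] } : B →ₐ[R] LaurentSeries K)
    ({ toRingHom := HahnSeries.C
       commutes' := fun _ => rfl } : K →ₐ[R] LaurentSeries K)
    (fun _ _ => Commute.all _ _)).toRingHom

theorem fe_Psi_tmul (b : B) (k : K) :
    fe_Psi (K := K) φ hφ (b ⊗ₜ k) = coeffMap (algebraMap 𝔽 K) (φ b) * HahnSeries.C k := by
  let _ : Algebra R (LaurentSeries K) := HahnSeries.instAlgebra
  show (Algebra.TensorProduct.lift (R := R) (S := R) _ _ _) (b ⊗ₜ k) = _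
  rw [Algebra.TensorProduct.lift_tmul]
  rfl

theorem fe_Psi_sum_coeff {ι : Type} [Fintype ι] (b : ι → B) (k : ι → K) (m : ℤ) :
    (fe_Psi (K := K) φ hφ (∑ i, b i ⊗ₜ[R] k i)).coeff m = ∑ i, (φ (b i)).coeff m • k i := by
  rw [map_sum]
  have : ∀ i, (fe_Psi (K := K) φ hφ (b i ⊗ₜ[R] k i)).coeff m = (φ (b i)).coeff m • k i := by
    intro i
    rw [fe_Psi_tmul, mul_comm, HahnSeries.C_mul_eq_smul, HahnSeries.coeff_smul, coeffMap_coeff,
      smul_eq_mul, Algebra.smul_def, mul_comm]
  rw [← Finset.sum_congr rfl fun i _ => this i]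
  exact map_sum (HahnSeries.coeff.addMonoidHom m) _ _

include hsurj hφ hℓ hker in
/-- **injectivity**, by induction on the length of a representation -/
theorem fe_Psi_sum_eq_zero : ∀ (n : ℕ) (ι : Type) [Fintype ι], Fintype.card ι = n →
    ∀ (b : ι → B) (k : ι → K), fe_Psi (K := K) φ hφ (∑ i, b i ⊗ₜ[R] k i) = 0 →
      ∑ i, b i ⊗ₜ[R] k i = 0 := by
  intro n
  induction n with
  | zero =>
    intro ι _ hcard b k _
    have : IsEmpty ι := Fintype.card_eq_zero_iff.mp hcard
    simp
  | succ n ih =>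
    intro ι _ hcard b k h0
    classical
    by_cases hli : LinearIndependent 𝔽 k
    · -- all `φ (b i)` vanish
      have hz : ∀ i, φ (b i) = 0 := by
        intro i
        ext m
        have hm := congrArg (fun f : LaurentSeries K => f.coeff m) h0
        simp only [fe_Psi_sum_coeff, HahnSeries.coeff_zero] at hm
        exact (Fintype.linearIndependent_iff.mp hli _ hm) i
      refine Finset.sum_eq_zero fun i _ => ?_
      obtain ⟨b', hb'⟩ := hker (b i) (hz i)
      rw [hb', TensorProduct.smul_tmul, Algebra.smul_def, IsScalarTower.algebraMap_apply R 𝔽 K,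
        hℓ, map_zero, zero_mul, TensorProduct.tmul_zero]
    · -- a dependence relation: eliminate one index
      rw [Fintype.linearIndependent_iff] at hli
      push Not at hli
      obtain ⟨c, hc, j, hj⟩ := hli
      -- `k j = ∑_{i ≠ j} d i • k i`
      have hkj : k j = ∑ i ∈ Finset.univ.erase j, (-(c i / c j)) • k i := by
        have h1 : c j • k j + ∑ i ∈ Finset.univ.erase j, c i • k i = 0 := by
          rw [Finset.add_sum_erase _ (fun i => c i • k i) (Finset.mem_univ j)]; exact hc
        have h2 : k j = -((c j)⁻¹ • ∑ i ∈ Finset.univ.erase j, c i • k i) := by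
          have h3 : c j • k j = -∑ i ∈ Finset.univ.erase j, c i • k i := eq_neg_of_add_eq_zero_left h1
          rw [← smul_neg, ← h3, smul_smul, inv_mul_cancel₀ hj, one_smul]
        rw [h2, Finset.smul_sum, ← Finset.sum_neg_distrib]
        refine Finset.sum_congr rfl fun i _ => ?_
        rw [smul_smul, neg_smul, div_eq_inv_mul]
      choose t ht using fun i => hsurj (-(c i / c j))
      have hkj' : k j = ∑ i ∈ Finset.univ.erase j, t i • k i := by
        rw [hkj]
        refine Finset.sum_congr rfl fun i _ => ?_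
        rw [← ht i, algebraMap_smul]
      -- rewrite the sum over `{i // i ≠ j}`
      have hsum : ∑ i, b i ⊗ₜ[R] k i =
          ∑ i : {i // i ≠ j}, (b i + t i • b j) ⊗ₜ[R] k i := by
        rw [← Finset.add_sum_erase _ (fun i => b i ⊗ₜ[R] k i) (Finset.mem_univ j)]
        conv_lhs => rw [hkj', TensorProduct.tmul_sum]
        rw [← Finset.sum_add_distrib]
        have : ∀ i ∈ Finset.univ.erase j, b j ⊗ₜ[R] (t i • k i) + b i ⊗ₜ[R] k i =
            (b i + t i • b j) ⊗ₜ[R] k i := by
          intro i _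
          rw [TensorProduct.add_tmul, TensorProduct.smul_tmul, add_comm]
        rw [Finset.sum_congr rfl this]
        rw [← Finset.sum_subtype (Finset.univ.erase j) (by simp)
          (fun i => (b i + t i • b j) ⊗ₜ[R] k i)]
      rw [hsum] at h0 ⊢
      refine ih {i // i ≠ j} ?_ _ _ h0
      rw [Fintype.card_subtype_compl, Fintype.card_subtype_eq, hcard]
      rfl

include hsurj hφ hℓ hker in
theorem fe_Psi_injective : Function.Injective (fe_Psi (K := K) φ hφ) := by
  rw [injective_iff_map_eq_zero]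
  intro x hx
  obtain ⟨ι, _, b, k, rfl⟩ := fe_exists_sum_tmul x
  exact fe_Psi_sum_eq_zero hsurj φ hφ ℓ hℓ hker _ ι rfl b k hx

include hsurj hφ hℓ hker in
/-- **`B ⊗[R] K` is a domain** -/
theorem fe_isDomain_tensor : IsDomain (B ⊗[R] K) :=
  Function.Injective.isDomain (fe_Psi (K := K) φ hφ)
    (fe_Psi_injective hsurj φ hφ ℓ hℓ hker)

end Tensor

end Fermat.Agent.S28
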