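import Mathlib
import Fermat.Prelude.Def_ModularCurve_IgusaScheme
import Fermat.Agent.S28.FrontEnd.Abstract
import Fermat.Agent.S28.FrontEnd.Tensor
import Fermat.Agent.S28.FrontEnd.CoeffRing
import Fermat.Agent.S28.FrontEnd.Gen

/-!
# S28 front end (W6): the generic chart lemma

`x y` elements of the full modular function field whose `q`-expansions have `ℓ`-integral
coefficients; `A = ℤ_(ℓ)[x] ≅` polynomial ring, `y` integral over `A`, `F = ℚ(x, y)`, and the
reductions `x̄, ȳ` satisfy the independence statement (HC).  Then the reduction of coefficients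
extends to a ring hom `chartAlg N ℓ {x} → 𝔽((q))` with kernel `ℓ • chartAlg`.
-/

set_option linter.unusedSectionVars false

namespace Fermat.Agent.S28

open ModularCurve ModularCurve.IgusaScheme Polynomial

variable (N : ℕ) [NeZero N] (ℓ : ℕ) [Fact ℓ.Prime]

set_option quotPrecheck false in
local notation "Zl" => ↥(GaloisRep.ratLocalizedAt ℓ)
set_option quotPrecheck false in
local notation "FF" => ↥(modularFunctionFieldFull N)
set_option quotPrecheck false in
local notation "Cf" => fe_coeffRing (GaloisRep.ratLocalizedAt ℓ)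

section Basics

theorem fe_coe_algebraMap_rat (r : ℚ) :
    ((algebraMap ℚ FF r : FF) : LaurentSeries ℚ) = HahnSeries.C r := by
  rw [eq_ratCast (algebraMap ℚ FF) r, SubfieldClass.coe_ratCast]
  have := map_ratCast (HahnSeries.C : ℚ →+* LaurentSeries ℚ) r
  rw [Rat.cast_id] at this
  exact this.symm

theorem fe_coe_algebraMap_zl (r : Zl) :
    ((algebraMap Zl FF r : FF) : LaurentSeries ℚ) = HahnSeries.C (r : ℚ) :=
  fe_coe_algebraMap_rat N (r : ℚ)

/-- the inclusion of the function field into `ℚ((q))` as a ring hom -/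
noncomputable def fe_val : FF →+* LaurentSeries ℚ where
  toFun z := (z : LaurentSeries ℚ)
  map_one' := rfl
  map_mul' _ _ := rfl
  map_zero' := rfl
  map_add' _ _ := rfl

@[simp] theorem fe_val_apply (z : FF) : fe_val N z = (z : LaurentSeries ℚ) := rfl

theorem fe_val_comp_algebraMap :
    (fe_val N).comp (algebraMap Zl FF) =
      (HahnSeries.C : ℚ →+* LaurentSeries ℚ).comp (GaloisRep.ratLocalizedAt ℓ).subtype := by
  ext r : 1
  exact fe_coe_algebraMap_zl N ℓ r

theorem fe_C_mem_coeffRing (r : Zl) : (HahnSeries.C (r : ℚ) : LaurentSeries ℚ) ∈ Cf := by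
  have : coeffMap (GaloisRep.ratLocalizedAt ℓ).subtype (HahnSeries.C r) = HahnSeries.C (r : ℚ) :=
    fe_coeffMap_C _ r
  rw [← this]
  exact fe_coeffMap_mem _ _

end Basics

section Phi0

variable {N ℓ}
variable {A : Subalgebra ↥(GaloisRep.ratLocalizedAt ℓ) ↥(modularFunctionFieldFull N)}
  (A0 : Subalgebra A ↥(modularFunctionFieldFull N))
  (hA0 : ∀ z ∈ A0, ((z : ↥(modularFunctionFieldFull N)) : LaurentSeries ℚ) ∈
    fe_coeffRing (GaloisRep.ratLocalizedAt ℓ))
  {𝔽 : Type} [Field 𝔽] (red : ↥(GaloisRep.ratLocalizedAt ℓ) →+* 𝔽)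

/-- reduction of the coefficients of the `q`-expansion, on a subalgebra of series with
`ℓ`-integral coefficients -/
noncomputable def fe_phi0 : A0 →+* LaurentSeries 𝔽 :=
  (fe_redSeries (GaloisRep.ratLocalizedAt ℓ) red).comp
    (RingHom.codRestrict
      ({ toFun := fun z => ((z : FF) : LaurentSeries ℚ)
         map_one' := rfl
         map_mul' := fun _ _ => rfl
         map_zero' := rfl
         map_add' := fun _ _ => rfl } : A0 →+* LaurentSeries ℚ) Cf
      (fun z => hA0 z z.2))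

theorem fe_phi0_eq (z : A0) (g : LaurentSeries Zl)
    (h : coeffMap (GaloisRep.ratLocalizedAt ℓ).subtype g = ((z : FF) : LaurentSeries ℚ)) :
    fe_phi0 A0 hA0 red z = coeffMap red g :=
  fe_redSeries_eq _ red h

/-- `fe_phi0` intertwines the inclusion into `ℚ((q))` with reduction of coefficients -/
theorem fe_phi0_spec (z : A0) :
    ∃ g : LaurentSeries Zl, coeffMap (GaloisRep.ratLocalizedAt ℓ).subtype g =
      ((z : FF) : LaurentSeries ℚ) ∧ fe_phi0 A0 hA0 red z = coeffMap red g := by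
  obtain ⟨g, hg⟩ := hA0 z z.2
  exact ⟨g, hg, fe_phi0_eq A0 hA0 red z g hg⟩

end Phi0

section Adjoin

variable {N ℓ}
variable (x y : ↥(modularFunctionFieldFull N))
  (hx : (x : LaurentSeries ℚ) ∈ fe_coeffRing (GaloisRep.ratLocalizedAt ℓ))
  (hy : (y : LaurentSeries ℚ) ∈ fe_coeffRing (GaloisRep.ratLocalizedAt ℓ))

include hx in
theorem fe_adjoin_le_coeff (a : FF) (ha : a ∈ Algebra.adjoin Zl {x}) :
    (a : LaurentSeries ℚ) ∈ Cf := by
  induction ha using Algebra.adjoin_induction with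
  | mem z hz =>
    rw [Set.mem_singleton_iff] at hz
    rw [hz]; exact hx
  | algebraMap r =>
    rw [fe_coe_algebraMap_zl]
    exact fe_C_mem_coeffRing ℓ r
  | add a b _ _ ha hb => exact add_mem ha hb
  | mul a b _ _ ha hb => exact mul_mem ha hb

include hx hy in
theorem fe_adjoin2_le_coeff (z : FF)
    (hz : z ∈ Algebra.adjoin ↥(Algebra.adjoin Zl {x}) {y}) :
    (z : LaurentSeries ℚ) ∈ Cf := by
  induction hz using Algebra.adjoin_induction with
  | mem z hz =>
    rw [Set.mem_singleton_iff] at hz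
    rw [hz]; exact hy
  | algebraMap a => exact fe_adjoin_le_coeff x hx a.1 a.2
  | add a b _ _ ha hb => exact add_mem ha hb
  | mul a b _ _ ha hb => exact mul_mem ha hb

end Adjoin

theorem fe_coeffMap_comp_C {R S : Type} [CommRing R] [CommRing S] (f : R →+* S) :
    (coeffMap f).comp (HahnSeries.C : R →+* LaurentSeries R) = HahnSeries.C.comp f := by
  ext r : 1
  exact fe_coeffMap_C f r

section Core

set_option synthInstance.maxHeartbeats 400000
set_option maxHeartbeats 1000000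

variable {N ℓ}
variable (x y : ↥(modularFunctionFieldFull N))
  (xR yR : LaurentSeries ↥(GaloisRep.ratLocalizedAt ℓ))
  (hxR : coeffMap (GaloisRep.ratLocalizedAt ℓ).subtype xR = (x : LaurentSeries ℚ))
  (hyR : coeffMap (GaloisRep.ratLocalizedAt ℓ).subtype yR = (y : LaurentSeries ℚ))
  {𝔽 : Type} [Field 𝔽] (red : ↥(GaloisRep.ratLocalizedAt ℓ) →+* 𝔽)

/-- a local shortcut: instance search for this is very slow -/
noncomputable local instance fe_instAlgebraSub
    {A : Subalgebra ↥(GaloisRep.ratLocalizedAt ℓ) ↥(modularFunctionFieldFull N)}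
    (A0 : Subalgebra A ↥(modularFunctionFieldFull N)) : Algebra ↥A ↥A0 := Subalgebra.algebra A0

/-- a local shortcut: instance search for this is very slow -/
noncomputable local instance fe_instSMulSub
    {A : Subalgebra ↥(GaloisRep.ratLocalizedAt ℓ) ↥(modularFunctionFieldFull N)}
    (A0 : Subalgebra A ↥(modularFunctionFieldFull N)) : SMul ↥A ↥A0 :=
  (Subalgebra.algebra A0).toSMul

set_option quotPrecheck false in
local notation "AA" => Algebra.adjoin ↥(GaloisRep.ratLocalizedAt ℓ) {x}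
set_option quotPrecheck false in
local notation "AA0" => Algebra.adjoin ↥(Algebra.adjoin ↥(GaloisRep.ratLocalizedAt ℓ) {x}) {y}

include hxR hyR in
theorem fe_hA0 : ∀ z ∈ AA0, ((z : FF) : LaurentSeries ℚ) ∈ Cf :=
  fe_adjoin2_le_coeff x y ⟨xR, hxR⟩ ⟨yR, hyR⟩

/-- the reduction map on `ℤ_(ℓ)[x][y]` -/
noncomputable def fe_phi : AA0 →+* LaurentSeries 𝔽 :=
  fe_phi0 AA0 (fe_hA0 x y xR yR hxR hyR) red

include hxR in
theorem fe_coe_aeval (p : Polynomial Zl) :
    ((aeval x p : FF) : LaurentSeries ℚ) =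
      coeffMap (GaloisRep.ratLocalizedAt ℓ).subtype (eval₂ HahnSeries.C xR p) := by
  have h1 : ((aeval x p : FF) : LaurentSeries ℚ) = fe_val N (eval₂ (algebraMap Zl FF) x p) := by
    rw [aeval_def]; rfl
  rw [h1, hom_eval₂, fe_val_comp_algebraMap, hom_eval₂, fe_coeffMap_comp_C, hxR]
  rfl

theorem fe_coe_algebraMap_sub (a : AA) : ((algebraMap AA AA0 a : AA0) : FF) = (a : FF) := by
  rw [Subalgebra.coe_algebraMap, Subalgebra.algebraMap_eq, RingHom.comp_apply,
    Algebra.algebraMap_self, RingHom.id_apply]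
  rfl

include hxR in
/-- reduction of a polynomial in `x` -/
theorem fe_phi_algebraMap (a : AA) (p : Polynomial Zl) (hp : (a : FF) = aeval x p) :
    fe_phi x y xR yR hxR hyR red (algebraMap AA AA0 a) =
      eval₂ (HahnSeries.C.comp red) (coeffMap red xR) p := by
  have h1 : coeffMap (GaloisRep.ratLocalizedAt ℓ).subtype (eval₂ HahnSeries.C xR p) =
      (((algebraMap AA AA0 a : AA0) : FF) : LaurentSeries ℚ) := by
    rw [← fe_coe_aeval x xR hxR p, ← hp, fe_coe_algebraMap_sub]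
  rw [fe_phi, fe_phi0_eq _ _ red _ _ h1, hom_eval₂, fe_coeffMap_comp_C]

/-- reduction of `y` -/
theorem fe_phi_y :
    fe_phi x y xR yR hxR hyR red ⟨y, Algebra.subset_adjoin rfl⟩ = coeffMap red yR := by
  rw [fe_phi, fe_phi0_eq _ _ red _ yR hyR]

/-- reduction of a polynomial in `y` with coefficients in `ℤ_(ℓ)[x]` -/
theorem fe_phi_aeval (P : Polynomial AA) :
    fe_phi x y xR yR hxR hyR red (aeval (⟨y, Algebra.subset_adjoin rfl⟩ : AA0) P) =
      eval₂ ((fe_phi x y xR yR hxR hyR red).comp (algebraMap AA AA0)) (coeffMap red yR) P := by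
  rw [aeval_def, hom_eval₂, fe_phi_y]

variable (hred : ∀ r, red r = 0 → ((ℓ : ℕ) : ↥(GaloisRep.ratLocalizedAt ℓ)) ∣ r)
  (hredℓ : red ((ℓ : ℕ) : ↥(GaloisRep.ratLocalizedAt ℓ)) = 0)
  (e : Polynomial ↥(GaloisRep.ratLocalizedAt ℓ) ≃ₐ[↥(GaloisRep.ratLocalizedAt ℓ)]
    ↥(Algebra.adjoin ↥(GaloisRep.ratLocalizedAt ℓ) {x}))
  (he : ∀ p, ((e p : ↥(Algebra.adjoin ↥(GaloisRep.ratLocalizedAt ℓ) {x})) :
    ↥(modularFunctionFieldFull N)) = aeval x p)
  (Pm : Polynomial ↥(Algebra.adjoin ↥(GaloisRep.ratLocalizedAt ℓ) {x})) (hPm : Pm.Monic)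
  (hPy : aeval y Pm = 0)
  (hC : ∀ c : ℕ → Polynomial 𝔽,
    (∑ i ∈ Finset.range Pm.natDegree,
      eval₂ HahnSeries.C (coeffMap red xR) (c i) * (coeffMap red yR) ^ i = 0) →
    ∀ i < Pm.natDegree, c i = 0)

set_option quotPrecheck false in
local notation "ellA" => algebraMap ↥(GaloisRep.ratLocalizedAt ℓ)
  ↥(Algebra.adjoin ↥(GaloisRep.ratLocalizedAt ℓ) {x}) ((ℓ : ℕ) : ↥(GaloisRep.ratLocalizedAt ℓ))
set_option quotPrecheck false in
local notation "y0" => (⟨y, Algebra.subset_adjoin rfl⟩ :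
  ↥(Algebra.adjoin ↥(Algebra.adjoin ↥(GaloisRep.ratLocalizedAt ℓ) {x}) {y}))

include hPy in
theorem fe_Pm_ne_one : Pm ≠ 1 := by
  rintro rfl
  rw [map_one] at hPy
  exact one_ne_zero hPy

theorem fe_coe_aeval_y0 (P : Polynomial AA) : ((aeval y0 P : AA0) : FF) = aeval y P := by
  have : ((aeval y0 P : AA0) : FF) = aeval ((y0 : AA0) : FF) P := by
    rw [← Subalgebra.coe_val, ← aeval_algHom_apply]
  rw [this]

include hPy in
theorem fe_aeval_y0_Pm : aeval y0 Pm = 0 := by
  apply Subtype.ext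
  rw [fe_coe_aeval_y0, hPy]
  rfl

include he hxR in
/-- reduction of `R(y)` for `deg R < n` -/
theorem fe_phi_sum (Rr : Polynomial AA) (hdeg : Rr.natDegree < Pm.natDegree) :
    fe_phi x y xR yR hxR hyR red (aeval y0 Rr) =
      ∑ i ∈ Finset.range Pm.natDegree,
        eval₂ HahnSeries.C (coeffMap red xR) ((e.symm (Rr.coeff i)).map red) *
          (coeffMap red yR) ^ i := by
  rw [fe_phi_aeval, eval₂_eq_sum_range' _ hdeg]
  refine Finset.sum_congr rfl fun i _ => ?_
  rw [RingHom.comp_apply,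
    fe_phi_algebraMap x y xR yR hxR hyR red (Rr.coeff i) (e.symm (Rr.coeff i))
      (by rw [← he, AlgEquiv.apply_symm_apply]), eval₂_map]

include hred in
theorem fe_dvd_of_map_eq_zero (p : Polynomial Zl) (hp : p.map red = 0) : ellA ∣ e p := by
  have h1 : C ((ℓ : ℕ) : Zl) ∣ p := by
    rw [C_dvd_iff_dvd_coeff]
    intro k
    apply hred
    rw [← coeff_map, hp, coeff_zero]
  obtain ⟨p', rfl⟩ := h1
  refine ⟨e p', ?_⟩
  rw [map_mul, ← algebraMap_eq, AlgEquiv.commutes]

include hred he hPm hPy hC hxR in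
/-- the kernel of the reduction map is `ℓ • A[y]` -/
theorem fe_phi_ker (z : AA0) (hz : fe_phi x y xR yR hxR hyR red z = 0) :
    ∃ z' : AA0, z = ellA • z' := by
  have hzmem : (z : FF) ∈ (aeval y : Polynomial AA →ₐ[AA] FF).range := by
    rw [← Algebra.adjoin_singleton_eq_range_aeval]
    exact z.2
  obtain ⟨Pp, hPp⟩ := hzmem
  have hPm1 : Pm ≠ 1 := fe_Pm_ne_one x y Pm hPy
  obtain ⟨Rr, hRr⟩ : ∃ Rr, Rr = Pp %ₘ Pm := ⟨_, rfl⟩
  have hdeg : Rr.natDegree < Pm.natDegree := hRr ▸ natDegree_modByMonic_lt Pp hPm hPm1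
  have hzR : z = aeval y0 Rr := by
    apply Subtype.ext
    rw [fe_coe_aeval_y0]
    have h1 : aeval y Pp = (z : FF) := hPp
    have h2 : Rr + Pm * (Pp /ₘ Pm) = Pp := hRr ▸ modByMonic_add_div Pp Pm
    rw [← h1, ← h2, map_add, map_mul, hPy, zero_mul, add_zero]
  rw [hzR, fe_phi_sum x y xR yR hxR hyR red e he Pm Rr hdeg] at hz
  have hc := hC (fun i => (e.symm (Rr.coeff i)).map red) hz
  have hdvd : ∀ i, ellA ∣ Rr.coeff i := by
    intro i
    by_cases hi : i < Pm.natDegree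
    · have := fe_dvd_of_map_eq_zero x red hred e _ (hc i hi)
      rwa [AlgEquiv.apply_symm_apply] at this
    · rw [coeff_eq_zero_of_natDegree_lt (lt_of_lt_of_le hdeg (not_lt.mp hi))]
      exact dvd_zero _
  obtain ⟨Rr', hRr'⟩ := (C_dvd_iff_dvd_coeff _ _).mpr hdvd
  refine ⟨aeval y0 Rr', ?_⟩
  rw [hzR, hRr', map_mul, aeval_C, Algebra.smul_def]

include hxR hredℓ in
theorem fe_phi_ellA :
    fe_phi x y xR yR hxR hyR red (algebraMap AA AA0 ellA) = 0 := by
  rw [fe_phi_algebraMap x y xR yR hxR hyR red ellA (C ((ℓ : ℕ) : Zl))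
    (by rw [aeval_C]; rfl), eval₂_C, RingHom.comp_apply, hredℓ, map_zero]

include hxR hredℓ in
theorem fe_phi_ker_conv (z z' : AA0) (h : z = ellA • z') :
    fe_phi x y xR yR hxR hyR red z = 0 := by
  rw [h, Algebra.smul_def, map_mul, fe_phi_ellA x y xR yR hxR hyR red hredℓ, zero_mul]

include hred he hPm hPy hC hxR in
theorem fe_phi_ne_zero (s : AA) (hs : ¬ ellA ∣ s) :
    fe_phi x y xR yR hxR hyR red (algebraMap AA AA0 s) ≠ 0 := by
  intro h0
  rw [fe_phi_algebraMap x y xR yR hxR hyR red s (e.symm s)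
    (by rw [← he, AlgEquiv.apply_symm_apply]), ← eval₂_map] at h0
  have hn : 0 < Pm.natDegree := hPm.natDegree_pos.mpr (fe_Pm_ne_one x y Pm hPy)
  have hc := hC (fun i => if i = 0 then (e.symm s).map red else 0) (by
    rw [Finset.sum_eq_single 0]
    · rw [if_pos rfl, pow_zero, mul_one, h0]
    · intro i _ hi
      rw [if_neg hi, eval₂_zero, zero_mul]
    · intro h
      exact absurd (Finset.mem_range.mpr hn) h) 0 hn
  rw [if_pos rfl] at hc
  have := fe_dvd_of_map_eq_zero x red hred e _ hc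
  rw [AlgEquiv.apply_symm_apply] at this
  exact hs this

include hPm hPy in
theorem fe_integral_A0 (z : FF) (hz : z ∈ AA0) : IsIntegral AA z := by
  have hy : IsIntegral AA y := ⟨Pm, hPm, by rw [← aeval_def]; exact hPy⟩
  exact adjoin_le_integralClosure hy hz

variable (hgen : ∀ T : Subfield ↥(modularFunctionFieldFull N), x ∈ T → y ∈ T → ∀ b, b ∈ T)

include hPm hPy hgen in
theorem fe_exists_smul_mem (b : FF) : ∃ a : AA, a ≠ 0 ∧ a • b ∈ AA0 := by
  refine (fe_mem_fracSubfield_iff AA0 (fe_integral_A0 x y Pm hPm hPy)).mp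
    (hgen (fe_fracSubfield AA0 (fe_integral_A0 x y Pm hPm hPy)) ?_ ?_ b)
  · refine fe_le_fracSubfield _ _ ?_
    have : x = algebraMap AA FF ⟨x, Algebra.subset_adjoin rfl⟩ := rfl
    rw [this]
    exact Subalgebra.algebraMap_mem _ _
  · exact fe_le_fracSubfield _ _ (Algebra.subset_adjoin rfl)

variable [IsIntegrallyClosed ↥(Algebra.adjoin ↥(GaloisRep.ratLocalizedAt ℓ) {x})]
  (hprime : Prime (algebraMap ↥(GaloisRep.ratLocalizedAt ℓ)
    ↥(Algebra.adjoin ↥(GaloisRep.ratLocalizedAt ℓ) {x}) ((ℓ : ℕ) : ↥(GaloisRep.ratLocalizedAt ℓ))))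
  (hpow : ∀ a : ↥(Algebra.adjoin ↥(GaloisRep.ratLocalizedAt ℓ) {x}), a ≠ 0 →
    ∃ (k : ℕ) (s : ↥(Algebra.adjoin ↥(GaloisRep.ratLocalizedAt ℓ) {x})),
      ¬ (algebraMap ↥(GaloisRep.ratLocalizedAt ℓ)
        ↥(Algebra.adjoin ↥(GaloisRep.ratLocalizedAt ℓ) {x})
          ((ℓ : ℕ) : ↥(GaloisRep.ratLocalizedAt ℓ))) ∣ s ∧
      a = (algebraMap ↥(GaloisRep.ratLocalizedAt ℓ)
        ↥(Algebra.adjoin ↥(GaloisRep.ratLocalizedAt ℓ) {x})
          ((ℓ : ℕ) : ↥(GaloisRep.ratLocalizedAt ℓ))) ^ k * s)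

/-- the abstract front-end data of the chart -/
@[reducible] noncomputable def fe_data : FEData AA FF (LaurentSeries 𝔽) where
  ell := ellA
  A0 := AA0
  phi0 := fe_phi x y xR yR hxR hyR red
  prime_ell := hprime
  integral_A0 := fe_integral_A0 x y Pm hPm hPy
  exists_smul_mem := fun b _ => fe_exists_smul_mem x y Pm hPm hPy hgen b
  exists_pow_mul := hpow
  ker_phi0 := fun z =>
    ⟨fe_phi_ker x y xR yR hxR hyR red hred e he Pm hPm hPy hC z,
      fun ⟨z', h⟩ => fe_phi_ker_conv x y xR yR hxR hyR red hredℓ z z' h⟩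
  phi0_ne_zero := fe_phi_ne_zero x y xR yR hxR hyR red hred e he Pm hPm hPy hC

/-- the chart algebra is (as a ring) the integral closure of `ℤ_(ℓ)[x]` -/
noncomputable def fe_toIC : ↥(chartAlg N ℓ {x}) →+* ↥(integralClosure AA FF) where
  toFun z := ⟨z.1, z.2⟩
  map_one' := rfl
  map_mul' _ _ := rfl
  map_zero' := rfl
  map_add' _ _ := rfl

include hxR hyR hred hredℓ he hPm hPy hC hgen hprime hpow in
/-- **the chart lemma**: the reduction of `q`-expansion coefficients extends to the chart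
algebra, with kernel `ℓ • chartAlg` -/
theorem fe_chart_exists :
    ∃ φ : ↥(chartAlg N ℓ {x}) →+* LaurentSeries 𝔽,
      (∀ r : Zl, φ (algebraMap Zl ↥(chartAlg N ℓ {x}) r) = HahnSeries.C (red r)) ∧
      (∀ b, φ b = 0 → ∃ b', b = ((ℓ : ℕ) : Zl) • b') ∧
      φ ⟨x, subset_chartAlg N ℓ _ rfl⟩ = coeffMap red xR := by
  obtain ⟨D, hD⟩ : ∃ D : FEData AA FF (LaurentSeries 𝔽),
      D = fe_data x y xR yR hxR hyR red hred hredℓ e he Pm hPm hPy hC hgen hprime hpow :=
    ⟨_, rfl⟩
  -- the extension agrees with `fe_phi` on `A[y]`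
  have key : ∀ (b : ↥(chartAlg N ℓ {x})) (z0 : AA0), (b : FF) = (z0 : FF) →
      D.ext (fe_toIC x b) = fe_phi x y xR yR hxR hyR red z0 := by
    intro b z0 h
    subst hD
    have h1 : fe_toIC x b = ⟨(z0 : FF), fe_integral_A0 x y Pm hPm hPy z0 z0.2⟩ := Subtype.ext h
    rw [h1]
    exact FEData.ext_eq_phi0
      (fe_data x y xR yR hxR hyR red hred hredℓ e he Pm hPm hPy hC hgen hprime hpow) z0
  refine ⟨D.ext.comp (fe_toIC x), ?_, ?_, ?_⟩
  · intro r
    rw [RingHom.comp_apply, key _ (algebraMap AA AA0 (algebraMap Zl AA r))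
      (by rw [fe_coe_algebraMap_sub]; rfl),
      fe_phi_algebraMap x y xR yR hxR hyR red _ (C r) (by rw [aeval_C]; rfl), eval₂_C]
    rfl
  · intro b hb
    rw [RingHom.comp_apply, FEData.ext_eq_zero_iff] at hb
    obtain ⟨b'', hb''⟩ := hb
    refine ⟨⟨b''.1, b''.2⟩, Subtype.ext ?_⟩
    have h1 : (b : FF) = ((D.ell • b'' : ↥(integralClosure AA FF)) : FF) := by
      rw [← hb'']; rfl
    rw [h1]
    subst hD
    show ((ellA • b'' : ↥(integralClosure AA FF)) : FF) = _
    rw [Subalgebra.coe_smul, Subalgebra.coe_smul, Algebra.smul_def, Algebra.smul_def,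
      ← IsScalarTower.algebraMap_apply]
  · rw [RingHom.comp_apply, key _ (algebraMap AA AA0 ⟨x, Algebra.subset_adjoin rfl⟩)
      (by rw [fe_coe_algebraMap_sub]),
      fe_phi_algebraMap x y xR yR hxR hyR red _ X (by rw [aeval_X]), eval₂_X]

end Core

end Fermat.Agent.S28
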