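/-
S28 front end (W6), leaf (P2): transcendence of `j` and `1/j` over `ℤ_(ℓ)` inside the full modular
function field, and the formal inverse `1/j(q)` over any commutative ring.
-/
import Mathlib
import Fermat.Agent.S28.FrontEnd.Chart
import Fermat.Agent.S28.Formal.Series
import Fermat.Agent.S28.Formal.PolyOrder
import Fermat.Agent.S28.Bridge.Descent
import Fermat.Agent.S28.Bridge.Kernel

set_option autoImplicit false

namespace Fermat.Agent.S28

open ModularCurve ModularCurve.IgusaScheme Polynomial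

/-! ### the formal inverse of `j(q)` -/

section jInv

/-- the formal `q`-expansion of `1/j`, over any commutative ring -/
noncomputable def ft_jInv (R : Type) [CommRing R] : LaurentSeries R :=
  fs_shift 1 (PowerSeries.invOfUnit (jNum.map (Int.castRingHom R)) 1)

theorem ft_jq_mul_jInv (R : Type) [CommRing R] : jqModC R * ft_jInv R = 1 := by
  rw [fs_jqModC_eq_shift, ft_jInv, fs_shift_mul,
    PowerSeries.mul_invOfUnit _ 1 (by rw [fs_constantCoeff_jNum_map]; rfl)]
  exact fs_shift_zero_one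

theorem ft_jInv_mul_jq (R : Type) [CommRing R] : ft_jInv R * jqModC R = 1 := by
  rw [mul_comm, ft_jq_mul_jInv]

theorem ft_coeffMap_jInv {R S : Type} [CommRing R] [CommRing S] (f : R →+* S) :
    coeffMap f (ft_jInv R) = ft_jInv S := by
  -- both sides are inverses of `jqModC S`
  have h1 : jqModC S * coeffMap f (ft_jInv R) = 1 := by
    rw [← fs_coeffMap_jqModC f, ← map_mul, ft_jq_mul_jInv, map_one]
  have h2 : jqModC S * ft_jInv S = 1 := ft_jq_mul_jInv S
  calc coeffMap f (ft_jInv R) = coeffMap f (ft_jInv R) * (jqModC S * ft_jInv S) := by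
        rw [h2, mul_one]
    _ = (jqModC S * coeffMap f (ft_jInv R)) * ft_jInv S := by ring
    _ = ft_jInv S := by rw [h1, one_mul]

end jInv

/-! ### transcendence -/

section transc

variable (N : ℕ) [NeZero N] (ℓ : ℕ) [Fact ℓ.Prime]

omit [Fact ℓ.Prime] in
theorem ft_coeffMap_jqModC_zl :
    coeffMap (GaloisRep.ratLocalizedAt ℓ).subtype (jqModC ↥(GaloisRep.ratLocalizedAt ℓ)) =
      ((jFull N : ↥(modularFunctionFieldFull N)) : LaurentSeries ℚ) := by
  rw [fs_coeffMap_jqModC, coe_jFull]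
  rfl

theorem ft_jq_order : (jqModC ℚ).order < 0 := by
  have h := fs_y_order (R := ℚ) (c := 1) (k := 1)
  rw [fs_y_one, qExpand_one_apply] at h
  rw [h]
  norm_num

/-- `j` is transcendental over `ℤ_(ℓ)` -/
theorem ft_transcendental_j :
    Transcendental ↥(GaloisRep.ratLocalizedAt ℓ) (jFull N) := by
  rw [transcendental_iff]
  intro p hp
  have h1 := fe_coe_aeval (jFull N) (jqModC ↥(GaloisRep.ratLocalizedAt ℓ))
    (ft_coeffMap_jqModC_zl N ℓ) p
  rw [hp] at h1
  -- push the coefficients to `ℚ`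
  have h2 : coeffMap (GaloisRep.ratLocalizedAt ℓ).subtype
      (eval₂ HahnSeries.C (jqModC ↥(GaloisRep.ratLocalizedAt ℓ)) p) =
      aeval (jqModC ℚ) (p.map (GaloisRep.ratLocalizedAt ℓ).subtype) := by
    rw [Polynomial.hom_eval₂, fs_coeffMap_jqModC, aeval_def, eval₂_map]
    congr 1
    ext r : 1
    rw [RingHom.comp_apply, RingHom.comp_apply, bd_coeffMap_C, bd_algebraMap_eq_C]
  rw [h2] at h1
  have h3 : p.map (GaloisRep.ratLocalizedAt ℓ).subtype = 0 := by
    apply fs_aeval_injective ft_jq_order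
    rw [map_zero]
    exact h1.symm
  exact (Polynomial.map_eq_zero_iff (Subtype.val_injective)).mp h3

/-- `1/j` is transcendental over `ℤ_(ℓ)` -/
theorem ft_transcendental_jinv :
    Transcendental ↥(GaloisRep.ratLocalizedAt ℓ) (jFull N)⁻¹ := by
  intro h
  exact ft_transcendental_j N ℓ (IsAlgebraic.inv_iff.mp h)

end transc

/-! ### `ℓ`-integral expansions of the chart generators -/

section expansions

variable (N : ℕ) [NeZero N] (ℓ : ℕ)

/-- `j(q^N)` as an element of the full function field -/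
noncomputable def ft_jN : ↥(modularFunctionFieldFull N) :=
  ⟨ModularCurve.jqN N, ModularCurve.jqd_mem_full N dvd_rfl⟩

theorem ft_coe_jN : ((ft_jN N : ↥(modularFunctionFieldFull N)) : LaurentSeries ℚ) = jqN N := rfl

/-- expansion of `j(q^N)` over `ℤ_(ℓ)` (fin chart, `y`-side) -/
theorem ft_coeffMap_jN_zl :
    coeffMap (GaloisRep.ratLocalizedAt ℓ).subtype
        (qExpand ↥(GaloisRep.ratLocalizedAt ℓ) N (jqModC ↥(GaloisRep.ratLocalizedAt ℓ))) =
      ((ft_jN N : ↥(modularFunctionFieldFull N)) : LaurentSeries ℚ) := by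
  rw [fs_coeffMap_qExpand, fs_coeffMap_jqModC, ft_coe_jN]
  rfl

theorem ft_jInv_rat : ft_jInv ℚ = (jq : LaurentSeries ℚ)⁻¹ :=
  eq_inv_of_mul_eq_one_right (ft_jq_mul_jInv ℚ)

/-- expansion of `1/j` over `ℤ_(ℓ)` (inf chart, `x`-side) -/
theorem ft_coeffMap_jInv_zl :
    coeffMap (GaloisRep.ratLocalizedAt ℓ).subtype (ft_jInv ↥(GaloisRep.ratLocalizedAt ℓ)) =
      (((jFull N)⁻¹ : ↥(modularFunctionFieldFull N)) : LaurentSeries ℚ) := by
  rw [ft_coeffMap_jInv, ft_jInv_rat]
  rfl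

/-- expansion of `j(q^N) / j^M` over `ℤ_(ℓ)` (inf chart, `y`-side) -/
theorem ft_coeffMap_jN_mul_zl (M : ℕ) :
    coeffMap (GaloisRep.ratLocalizedAt ℓ).subtype
        (qExpand ↥(GaloisRep.ratLocalizedAt ℓ) N (jqModC ↥(GaloisRep.ratLocalizedAt ℓ)) *
          ft_jInv ↥(GaloisRep.ratLocalizedAt ℓ) ^ M) =
      ((ft_jN N * (jFull N)⁻¹ ^ M : ↥(modularFunctionFieldFull N)) : LaurentSeries ℚ) := by
  rw [map_mul, map_pow, ft_coeffMap_jN_zl N ℓ, ft_coeffMap_jInv_zl N ℓ]
  rfl

end expansions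

/-! ### the independence statement (HC) at infinity -/

section HCinf

/-- (HC) for the infinity chart `(1/j, j(q^N)/j^M)` from (HC) for `(j, j(q^N))` -/
theorem ft_polyIndep_inf (𝔽 : Type) [Field 𝔽] (N : ℕ) [NeZero N] (M : ℕ) {n : ℕ}
    (h : bd_PolyIndep 𝔽 (jqModC 𝔽) (qExpand 𝔽 N (jqModC 𝔽)) n) :
    bd_PolyIndep 𝔽 (ft_jInv 𝔽) (qExpand 𝔽 N (jqModC 𝔽) * ft_jInv 𝔽 ^ M) n :=
  bd_polyIndep_inv (ft_jq_mul_jInv 𝔽) M h

/-- reduction of the `x`-side expansion at infinity -/
theorem ft_coeffMap_red_jInv {R 𝔽 : Type} [CommRing R] [CommRing 𝔽] (red : R →+* 𝔽) :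
    coeffMap red (ft_jInv R) = ft_jInv 𝔽 := ft_coeffMap_jInv red

/-- reduction of the `y`-side expansion at infinity -/
theorem ft_coeffMap_red_jN_mul {R 𝔽 : Type} [CommRing R] [CommRing 𝔽] (red : R →+* 𝔽)
    (N : ℕ) [NeZero N] (M : ℕ) :
    coeffMap red (qExpand R N (jqModC R) * ft_jInv R ^ M) =
      qExpand 𝔽 N (jqModC 𝔽) * ft_jInv 𝔽 ^ M := by
  rw [map_mul, map_pow, fs_coeffMap_qExpand, fs_coeffMap_jqModC, ft_coeffMap_jInv]

/-- reduction of the `y`-side expansion, fin chart -/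
theorem ft_coeffMap_red_jN {R 𝔽 : Type} [CommRing R] [CommRing 𝔽] (red : R →+* 𝔽)
    (N : ℕ) [NeZero N] :
    coeffMap red (qExpand R N (jqModC R)) = qExpand 𝔽 N (jqModC 𝔽) := by
  rw [fs_coeffMap_qExpand, fs_coeffMap_jqModC]

end HCinf

end Fermat.Agent.S28
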