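/-
S28 front end (W6): from the generic chart lemma `fe_chart_exists` (helper7) to
`IsDomain (chartAlg N ℓ {x} ⊗[ℤ_(ℓ)] K)`, for a chart generator `x` (transcendental over `ℤ_(ℓ)`)
and a second generator `y` killed by a monic `Ψ ∈ ℤ_(ℓ)[X][Y]`, given the independence statement
over the residue field `fz_F ℓ` and generation of the function field by `x, y`.
Then the instantiation at the INFINITY chart `(x, y) = (1/j, j(q^N)/j^M)`.
-/
import Mathlib
import Fermat.Agent.S28.FrontEnd.Chart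
import Fermat.Agent.S28.FrontEnd.Zl
import Fermat.Agent.S28.FrontEnd.Transc
import Fermat.Agent.S28.Bridge.Kernel

set_option autoImplicit false
set_option linter.unusedSectionVars false

namespace Fermat.Agent.S28

open ModularCurve ModularCurve.IgusaScheme Polynomial TensorProduct

variable (N : ℕ) [NeZero N] (ℓ : ℕ) [Fact ℓ.Prime]

set_option quotPrecheck false in
local notation "Zl" => ↥(GaloisRep.ratLocalizedAt ℓ)
set_option quotPrecheck false in
local notation "FF" => ↥(modularFunctionFieldFull N)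

section generic

variable {N ℓ}
variable (x y : ↥(modularFunctionFieldFull N))
  (xR yR : LaurentSeries ↥(GaloisRep.ratLocalizedAt ℓ))
  (hxR : coeffMap (GaloisRep.ratLocalizedAt ℓ).subtype xR = (x : LaurentSeries ℚ))
  (hyR : coeffMap (GaloisRep.ratLocalizedAt ℓ).subtype yR = (y : LaurentSeries ℚ))
  (hx : Transcendental ↥(GaloisRep.ratLocalizedAt ℓ) x)
  (Ψ : Polynomial (Polynomial ↥(GaloisRep.ratLocalizedAt ℓ))) (hΨm : Ψ.Monic)
  (hΨ0 : Ψ.eval₂ (aeval x : Polynomial ↥(GaloisRep.ratLocalizedAt ℓ) →ₐ[↥(GaloisRep.ratLocalizedAt ℓ)]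
    ↥(modularFunctionFieldFull N)).toRingHom y = 0)
  (hind : bd_PolyIndep (fz_F ℓ) (coeffMap (algebraMap ↥(GaloisRep.ratLocalizedAt ℓ) (fz_F ℓ)) xR)
    (coeffMap (algebraMap ↥(GaloisRep.ratLocalizedAt ℓ) (fz_F ℓ)) yR) Ψ.natDegree)
  (hgen : ∀ T : Subfield ↥(modularFunctionFieldFull N), x ∈ T → y ∈ T → ∀ b, b ∈ T)

/-- `algebraMap A FF ∘ e = aeval x` for `e = fz_equiv` -/
theorem fcd_algebraMap_comp_equiv (hx : Transcendental ↥(GaloisRep.ratLocalizedAt ℓ) x) :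
    (algebraMap ↥(Algebra.adjoin Zl {x}) FF).comp
        ((fz_equiv ℓ x hx : Polynomial Zl ≃ₐ[Zl] ↥(Algebra.adjoin Zl {x})) :
          Polynomial Zl →+* ↥(Algebra.adjoin Zl {x})) =
      (aeval x : Polynomial Zl →ₐ[Zl] FF).toRingHom := by
  refine RingHom.ext fun p => ?_
  exact fz_equiv_coe ℓ x hx p

include hΨ0 hx in
theorem fcd_aeval_map :
    aeval y (Ψ.map ((fz_equiv ℓ x hx : Polynomial Zl ≃ₐ[Zl] ↥(Algebra.adjoin Zl {x})) :
      Polynomial Zl →+* ↥(Algebra.adjoin Zl {x}))) = 0 := by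
  rw [aeval_def, eval₂_map, fcd_algebraMap_comp_equiv x hx]
  exact hΨ0

theorem fcd_natDegree_map (hx : Transcendental ↥(GaloisRep.ratLocalizedAt ℓ) x) :
    (Ψ.map ((fz_equiv ℓ x hx : Polynomial Zl ≃ₐ[Zl] ↥(Algebra.adjoin Zl {x})) :
      Polynomial Zl →+* ↥(Algebra.adjoin Zl {x}))).natDegree = Ψ.natDegree :=
  natDegree_map_eq_of_injective (fz_equiv ℓ x hx).injective Ψ

/-- conversion of `bd_PolyIndep` to the range-sum form of the chart lemma -/
theorem fcd_hC {𝔽 : Type} [Field 𝔽] {X Y : LaurentSeries 𝔽} {n : ℕ}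
    (h : bd_PolyIndep 𝔽 X Y n) (c : ℕ → Polynomial 𝔽)
    (hc : ∑ i ∈ Finset.range n, eval₂ HahnSeries.C X (c i) * Y ^ i = 0) :
    ∀ i < n, c i = 0 := by
  have key := h (fun i : Fin n => c i) (by
    rw [← hc, Finset.sum_range]
    refine Finset.sum_congr rfl fun i _ => ?_
    congr 1
    rw [aeval_def]
    congr 1
    exact RingHom.ext fun r => bd_algebraMap_eq_C r)
  intro i hi
  exact congrFun key ⟨i, hi⟩

include hxR hyR hx hΨm hΨ0 hind hgen in
/-- **the chart homomorphism** for a chart `(x, y, Ψ)` -/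
theorem fcd_exists_hom :
    ∃ φ : ↥(chartAlg N ℓ {x}) →+* LaurentSeries (fz_F ℓ),
      (∀ r : Zl, φ (algebraMap Zl ↥(chartAlg N ℓ {x}) r) =
        HahnSeries.C (algebraMap Zl (fz_F ℓ) r)) ∧
      (∀ b, φ b = 0 → ∃ b', b = ((ℓ : ℕ) : Zl) • b') ∧
      φ ⟨x, subset_chartAlg N ℓ _ rfl⟩ = coeffMap (algebraMap Zl (fz_F ℓ)) xR := by
  have := fz_isIntegrallyClosed_adjoin ℓ x hx
  refine fe_chart_exists x y xR yR hxR hyR (algebraMap Zl (fz_F ℓ))
    (fun r hr => (fz_algebraMap_eq_zero_iff_dvd ℓ r).mp hr)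
    ((fz_algebraMap_eq_zero_iff_dvd ℓ _).mpr dvd_rfl)
    (fz_equiv ℓ x hx) (fz_equiv_coe ℓ x hx)
    (Ψ.map ((fz_equiv ℓ x hx : Polynomial Zl ≃ₐ[Zl] ↥(Algebra.adjoin Zl {x})) :
      Polynomial Zl →+* ↥(Algebra.adjoin Zl {x})))
    (hΨm.map _) (fcd_aeval_map x y hx Ψ hΨ0) ?_ hgen (fz_prime_adjoin ℓ x hx)
    (fz_max_power_factor ℓ x hx)
  intro c hc
  rw [fcd_natDegree_map x Ψ hx] at hc ⊢
  exact fcd_hC hind c hc

variable (K : Type) [Field K] [Algebra ↥(GaloisRep.ratLocalizedAt ℓ) K] [CharP K ℓ]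

include hxR hyR hx hΨm hΨ0 hind hgen in
/-- **the base change of the chart algebra is a domain** -/
theorem fcd_isDomain : IsDomain (↥(chartAlg N ℓ {x}) ⊗[Zl] K) := by
  obtain ⟨φ, hφ, hker, -⟩ := fcd_exists_hom x y xR yR hxR hyR hx Ψ hΨm hΨ0 hind hgen
  let _ := fz_algebra ℓ K
  have := fz_isScalarTower ℓ K
  exact fe_isDomain_tensor (R := Zl) (B := ↥(chartAlg N ℓ {x})) (𝔽 := fz_F ℓ) (K := K)
    (fz_algebraMap_surjective ℓ) φ hφ ((ℓ : ℕ) : Zl)
    ((fz_algebraMap_eq_zero_iff_dvd ℓ _).mpr dvd_rfl) hker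

end generic

end Fermat.Agent.S28
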