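/-
S28 front end (W6): the two chart instantiations of `fcd_isDomain` (ChartDom.lean):
* fin chart `(x, y, Ψ) = (j, j(q^N), Φ)`;
* inf chart `(x, y, Ψ) = (1/j, j(q^N)/j^M, bd_PhiInf Φ M)`.
Inputs: the front-end interface (HP') `Φ, hΦm, hΦ0`, (HC) `hC`, and generation `hgen` of the full
function field by `j, j(q^N)` (from (HG)).
-/
import Mathlib
import Fermat.Agent.S28.FrontEnd.ChartDom

set_option autoImplicit false
set_option linter.unusedSectionVars false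

namespace Fermat.Agent.S28

open ModularCurve ModularCurve.IgusaScheme Polynomial TensorProduct

variable (N : ℕ) [NeZero N] (ℓ : ℕ) [Fact ℓ.Prime]

set_option quotPrecheck false in
local notation "Zl" => ↥(GaloisRep.ratLocalizedAt ℓ)
set_option quotPrecheck false in
local notation "FF" => ↥(modularFunctionFieldFull N)

/-- `fe_val ∘ aeval j` is the evaluation map of the front-end interface -/
theorem fcb_val_comp_aeval :
    (fe_val N).comp (aeval (jFull N) : Polynomial Zl →ₐ[Zl] FF).toRingHom =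
      Polynomial.eval₂RingHom ((HahnSeries.C : ℚ →+* LaurentSeries ℚ).comp
        (algebraMap Zl ℚ)) ModularCurve.jq := by
  refine Polynomial.ringHom_ext (fun r => ?_) ?_
  · simp only [RingHom.comp_apply, AlgHom.toRingHom_eq_coe, RingHom.coe_coe, aeval_C,
      coe_eval₂RingHom, eval₂_C]
    exact fe_coe_algebraMap_zl N ℓ r
  · simp only [RingHom.comp_apply, AlgHom.toRingHom_eq_coe, RingHom.coe_coe, aeval_X,
      coe_eval₂RingHom, eval₂_X]
    rfl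

variable (Φ : Polynomial (Polynomial ↥(GaloisRep.ratLocalizedAt ℓ))) (hΦm : Φ.Monic)
  (hΦ0 : Φ.eval₂ (Polynomial.eval₂RingHom ((HahnSeries.C : ℚ →+* LaurentSeries ℚ).comp
      (algebraMap ↥(GaloisRep.ratLocalizedAt ℓ) ℚ)) ModularCurve.jq) (ModularCurve.jqN N) = 0)
  (hC : bd_PolyIndep (ZMod ℓ) (jqModC (ZMod ℓ)) (qExpand (ZMod ℓ) N (jqModC (ZMod ℓ)))
      Φ.natDegree)
  (hgen : ∀ T : Subfield ↥(modularFunctionFieldFull N), jFull N ∈ T → ft_jN N ∈ T → ∀ b, b ∈ T)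

include hΦ0 in
/-- (HP') inside the function field -/
theorem fcb_root_fin :
    Φ.eval₂ (aeval (jFull N) : Polynomial Zl →ₐ[Zl] FF).toRingHom (ft_jN N) = 0 := by
  apply Subtype.ext
  have h := Polynomial.hom_eval₂ Φ (aeval (jFull N) : Polynomial Zl →ₐ[Zl] FF).toRingHom
    (fe_val N) (ft_jN N)
  rw [fcb_val_comp_aeval] at h
  have h2 : fe_val N (ft_jN N) = ModularCurve.jqN N := rfl
  rw [h2, hΦ0] at h
  exact h

include hC in
/-- (HC) over the residue field `fz_F ℓ` -/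
theorem fcb_polyIndep_F :
    bd_PolyIndep (fz_F ℓ) (jqModC (fz_F ℓ)) (qExpand (fz_F ℓ) N (jqModC (fz_F ℓ)))
      Φ.natDegree := by
  have h := bd_polyIndep_coeffMap (ZMod.castHom (dvd_refl ℓ) (fz_F ℓ)) hC
  rwa [fs_coeffMap_qExpand, fs_coeffMap_jqModC] at h

variable (K : Type) [Field K] [Algebra ↥(GaloisRep.ratLocalizedAt ℓ) K] [CharP K ℓ]

include hΦm hΦ0 hC hgen in
/-- **the fin chart** -/
theorem fcb_isDomain_fin : IsDomain (↥(chartAlgFin N ℓ) ⊗[Zl] K) := by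
  refine fcd_isDomain (jFull N) (ft_jN N) (jqModC Zl) (qExpand Zl N (jqModC Zl))
    (ft_coeffMap_jqModC_zl N ℓ) (ft_coeffMap_jN_zl N ℓ) (ft_transcendental_j N ℓ) Φ hΦm
    (fcb_root_fin N ℓ Φ hΦ0) ?_ hgen K
  rw [fs_coeffMap_jqModC, ft_coeffMap_red_jN]
  exact fcb_polyIndep_F N ℓ Φ hC

include hΦm hΦ0 hC hgen in
/-- **the chart homomorphism of the fin chart** (for `j ⊗ 1 ≠ 0`) -/
theorem fcb_exists_hom_fin :
    ∃ φ : ↥(chartAlgFin N ℓ) →+* LaurentSeries (fz_F ℓ),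
      (∀ r : Zl, φ (algebraMap Zl ↥(chartAlgFin N ℓ) r) =
        HahnSeries.C (algebraMap Zl (fz_F ℓ) r)) ∧
      (∀ b, φ b = 0 → ∃ b', b = ((ℓ : ℕ) : Zl) • b') ∧
      φ (jChartFin N ℓ) = jqModC (fz_F ℓ) := by
  obtain ⟨φ, h1, h2, h3⟩ := fcd_exists_hom (jFull N) (ft_jN N) (jqModC Zl)
    (qExpand Zl N (jqModC Zl))
    (ft_coeffMap_jqModC_zl N ℓ) (ft_coeffMap_jN_zl N ℓ) (ft_transcendental_j N ℓ) Φ hΦm
    (fcb_root_fin N ℓ Φ hΦ0) (by
      rw [fs_coeffMap_jqModC, ft_coeffMap_red_jN]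
      exact fcb_polyIndep_F N ℓ Φ hC) hgen
  refine ⟨φ, h1, h2, ?_⟩
  rw [← fs_coeffMap_jqModC (algebraMap Zl (fz_F ℓ)), ← h3]
  rfl

/-- a uniform bound for the `j`-degrees of the coefficients of `Φ` -/
noncomputable def fcb_M : ℕ := Φ.support.sup fun i => (Φ.coeff i).natDegree

theorem fcb_M_spec (i : ℕ) : (Φ.coeff i).natDegree ≤ fcb_M ℓ Φ := by
  by_cases hi : i ∈ Φ.support
  · exact Finset.le_sup (f := fun i => (Φ.coeff i).natDegree) hi
  · rw [Polynomial.notMem_support_iff.mp hi, natDegree_zero]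
    exact Nat.zero_le _

include hΦm hΦ0 hC hgen in
/-- **the inf chart** -/
theorem fcb_isDomain_inf : IsDomain (↥(chartAlgInf N ℓ) ⊗[Zl] K) := by
  set M := fcb_M ℓ Φ with hM
  have hj0 : jFull N ≠ 0 := jFull_ne_zero N
  have hxx' : jFull N * (jFull N)⁻¹ = 1 := mul_inv_cancel₀ hj0
  have hΨn : (bd_PhiInf Φ M).natDegree = Φ.natDegree := bd_PhiInf_natDegree hΦm M
  refine fcd_isDomain (jFull N)⁻¹ (ft_jN N * (jFull N)⁻¹ ^ M) (ft_jInv Zl)
    (qExpand Zl N (jqModC Zl) * ft_jInv Zl ^ M)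
    (ft_coeffMap_jInv_zl N ℓ) (ft_coeffMap_jN_mul_zl N ℓ M) (ft_transcendental_jinv N ℓ)
    (bd_PhiInf Φ M) (bd_PhiInf_monic hΦm M)
    (bd_PhiInf_root hxx' (bd_natDegree_coeff_le hΦm (fcb_M_spec ℓ Φ)) (fcb_root_fin N ℓ Φ hΦ0))
    ?_ ?_ K
  · rw [ft_coeffMap_red_jInv, ft_coeffMap_red_jN_mul, hΨn]
    exact ft_polyIndep_inf (fz_F ℓ) N M (fcb_polyIndep_F N ℓ Φ hC)
  · intro T hx hy b
    have h1 : jFull N ∈ T := by
      have := T.inv_mem hx
      rwa [inv_inv] at this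
    have h2 : ft_jN N ∈ T := by
      have h3 : ft_jN N = (ft_jN N * (jFull N)⁻¹ ^ M) * (jFull N) ^ M := by
        rw [mul_assoc, ← mul_pow, inv_mul_cancel₀ hj0, one_pow, mul_one]
      rw [h3]
      exact T.mul_mem hy (T.pow_mem h1 M)
    exact hgen T h1 h2 b

end Fermat.Agent.S28
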