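/-
S28 front end (W6), final statements in the shape consumed by `Fermat/Agent/S28.lean`:
generation of the full function field by `j, j(q^N)` from (HG), the two chart domains, and
`j ⊗ 1 ≠ 0`.
-/
import Mathlib
import Fermat.Agent.S28.FrontEnd.ChartsBoth

set_option autoImplicit false
set_option linter.unusedSectionVars false

namespace Fermat.Agent.S28

open ModularCurve ModularCurve.IgusaScheme Polynomial TensorProduct

variable (N : ℕ) [NeZero N] (ℓ : ℕ) [Fact ℓ.Prime]

set_option quotPrecheck false in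
local notation "Zl" => ↥(GaloisRep.ratLocalizedAt ℓ)
set_option quotPrecheck false in
local notation "FF" => ↥(modularFunctionFieldFull N)

/-- membership in a subfield of `ℚ((q))` propagates along `IntermediateField.adjoin ℚ` -/
theorem fcf_adjoin_le_subfield (S : Set (LaurentSeries ℚ)) (T : Subfield (LaurentSeries ℚ))
    (hS : S ⊆ T) {z : LaurentSeries ℚ} (hz : z ∈ IntermediateField.adjoin ℚ S) : z ∈ T := by
  induction hz using IntermediateField.adjoin_induction with
  | mem x hx => exact hS hx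
  | algebraMap r =>
    rw [eq_ratCast (algebraMap ℚ (LaurentSeries ℚ)) r]
    exact SubfieldClass.ratCast_mem T r
  | add x y _ _ hx hy => exact T.add_mem hx hy
  | inv x _ hx => exact T.inv_mem hx
  | mul x y _ _ hx hy => exact T.mul_mem hx hy

/-- **generation**: under (HG) every subfield of the full function field containing `j` and
`j(q^N)` is everything -/
theorem fcf_gen (hG : ModularCurve.FunctionFieldGeneration N)
    (T : Subfield ↥(modularFunctionFieldFull N)) (hx : jFull N ∈ T) (hy : ft_jN N ∈ T)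
    (b : ↥(modularFunctionFieldFull N)) : b ∈ T := by
  -- push `T` forward to `ℚ((q))`
  set T' : Subfield (LaurentSeries ℚ) := T.map (fe_val N) with hT'
  have hjq : (ModularCurve.jq : LaurentSeries ℚ) ∈ T' := ⟨jFull N, hx, rfl⟩
  have hjN : (qExpand ℚ N ModularCurve.jq : LaurentSeries ℚ) ∈ T' := ⟨ft_jN N, hy, rfl⟩
  have h2 : ∀ z, z ∈ IntermediateField.adjoin ℚ
      ({ModularCurve.jq, qExpand ℚ N ModularCurve.jq} : Set (LaurentSeries ℚ)) → z ∈ T' := by
    intro z hz
    refine fcf_adjoin_le_subfield _ T' ?_ hz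
    rintro s (rfl | rfl)
    · exact hjq
    · exact hjN
  have h3 : ((b : ↥(modularFunctionFieldFull N)) : LaurentSeries ℚ) ∈ T' := by
    refine fcf_adjoin_le_subfield (divisorExpansions N) T' ?_ b.2
    rintro s ⟨d, hd, hdN, rfl⟩
    exact h2 _ (hG d hdN hd)
  obtain ⟨b', hb', hbb'⟩ := h3
  have : b' = b := Subtype.ext hbb'
  rwa [← this]

variable (K : Type) [Field K] [Algebra ↥(GaloisRep.ratLocalizedAt ℓ) K] [CharP K ℓ]
  (hG : ModularCurve.FunctionFieldGeneration N)
  (Φ : Polynomial (Polynomial ↥(GaloisRep.ratLocalizedAt ℓ))) (hΦm : Φ.Monic)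
  (hΦ0 : Φ.eval₂ (Polynomial.eval₂RingHom ((HahnSeries.C : ℚ →+* LaurentSeries ℚ).comp
      (algebraMap ↥(GaloisRep.ratLocalizedAt ℓ) ℚ)) ModularCurve.jq) (ModularCurve.jqN N) = 0)
  (hC : bd_PolyIndep (ZMod ℓ) (jqModC (ZMod ℓ)) (qExpand (ZMod ℓ) N (jqModC (ZMod ℓ)))
      Φ.natDegree)

include hG hΦm hΦ0 hC in
theorem fcf_isDomain_fin :
    IsDomain (TensorProduct ↥(GaloisRep.ratLocalizedAt ℓ) ↥(chartAlgFin N ℓ) K) :=
  fcb_isDomain_fin N ℓ Φ hΦm hΦ0 hC (fcf_gen N hG) K

include hG hΦm hΦ0 hC in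
theorem fcf_isDomain_inf :
    IsDomain (TensorProduct ↥(GaloisRep.ratLocalizedAt ℓ) ↥(chartAlgInf N ℓ) K) :=
  fcb_isDomain_inf N ℓ Φ hΦm hΦ0 hC (fcf_gen N hG) K

include hG hΦm hΦ0 hC in
/-- `j ⊗ 1 ≠ 0` in the base change of the fin chart -/
theorem fcf_j_ne :
    (jChartFin N ℓ ⊗ₜ[↥(GaloisRep.ratLocalizedAt ℓ)] (1 : K)) ≠ 0 := by
  obtain ⟨φ, hφ, hker, hj⟩ := fcb_exists_hom_fin N ℓ Φ hΦm hΦ0 hC (fcf_gen N hG)
  let _ := fz_algebra ℓ K
  have := fz_isScalarTower ℓ K
  intro h0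
  have h1 := congrArg (fe_Psi (R := ↥(GaloisRep.ratLocalizedAt ℓ)) (B := ↥(chartAlgFin N ℓ))
    (𝔽 := fz_F ℓ) (K := K) φ hφ) h0
  rw [fe_Psi_tmul, map_zero, hj, fs_coeffMap_jqModC, map_one, mul_one] at h1
  -- `jqModC K ≠ 0`
  have h2 : (jqModC K).coeff (-1) = 1 := by
    have := fs_y_coeff_neg (R := K) (c := 1) (k := 1)
    rw [fs_y_one, qExpand_one_apply] at this
    simpa using this
  rw [h1, HahnSeries.coeff_zero] at h2
  exact zero_ne_one h2

end Fermat.Agent.S28
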